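/-
S18lib / Haupt / Forms  (lead)

The level-`p` modular forms `E₄(z), E₄(pz), E₆(z), E₆(pz)` on `Γ₀(p)` and their `q`-expansions as
(images of) integer power series.
-/
import Mathlib
import Fermat.Agent.S16lib.M2.Forms
import Fermat.Agent.S16lib.M3.E6
import Fermat.Agent.ProgramR.QExp.JExp

set_option autoImplicit false
set_option linter.unusedSectionVars false

noncomputable section

namespace Fermat.Agent.S18lib.Haupt

open scoped MatrixGroups ModularForm
open UpperHalfPlane CongruenceSubgroup Matrix ModularForm ModularFormClass EisensteinSeries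
open Fermat.Agent.S16lib.Op Fermat.Agent.S16lib.M2 Fermat.Agent.S16lib.M3
open Fermat.Agent.ProgramR.QExp

/-- the formal substitution `q ↦ q^p` on integer power series -/
def vp (p : ℕ) (a : PowerSeries ℤ) : PowerSeries ℤ :=
  PowerSeries.mk fun n => if p ∣ n then PowerSeries.coeff (n / p) a else 0

theorem coeff_vp (p : ℕ) (a : PowerSeries ℤ) (n : ℕ) :
    PowerSeries.coeff n (vp p a) = if p ∣ n then PowerSeries.coeff (n / p) a else 0 := by
  rw [vp, PowerSeries.coeff_mk]

variable (p : ℕ) [NeZero p]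

/-- `E₄(z)` on `Γ₀(p)` -/
def e4L : ModularForm (Gamma0 p) 4 := restrictGamma0 p E₄

/-- `E₄(pz)` on `Γ₀(p)` -/
def e4V : ModularForm (Gamma0 p) 4 := ((p : ℂ) ^ 3)⁻¹ • wSlash p (restrictGamma0 p E₄)

/-- `E₆(z)` on `Γ₀(p)` -/
def e6L : ModularForm (Gamma0 p) 6 := restrictGamma0 p E₆

/-- `E₆(pz)` on `Γ₀(p)` -/
def e6V : ModularForm (Gamma0 p) 6 := ((p : ℂ) ^ 5)⁻¹ • wSlash p (restrictGamma0 p E₆)

/-- the ring homomorphism `ℤ⟦X⟧ → ℂ⟦X⟧` -/
abbrev castC : PowerSeries ℤ →+* PowerSeries ℂ := PowerSeries.map (Int.castRingHom ℂ)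

theorem castC_injective : Function.Injective castC := by
  intro a b h
  ext n
  have := congrArg (PowerSeries.coeff n) h
  simpa using this

theorem qExpansion_e4L : qExpansion 1 (e4L p) = castC ModularCurve.eisenstein4 := by
  show qExpansion 1 (⇑(restrictGamma0 p E₄)) = _
  rw [coe_restrictGamma0, qExpansion_E₄]

theorem qExpansion_e6L : qExpansion 1 (e6L p) = castC eisenstein6 := by
  show qExpansion 1 (⇑(restrictGamma0 p E₆)) = _
  rw [coe_restrictGamma0, qExpansion_E₆]

theorem qExpansion_smul_wSlash {k : ℤ} (f : ModularForm 𝒮ℒ k) (a : PowerSeries ℤ)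
    (hf : qExpansion 1 f = castC a) (m : ℕ) (hk : k - 1 = m) :
    qExpansion 1 (((p : ℂ) ^ m)⁻¹ • wSlash p (restrictGamma0 p f)) = castC (vp p a) := by
  have hp : (p : ℂ) ≠ 0 := Nat.cast_ne_zero.mpr (NeZero.ne p)
  rw [ModularForm.qExpansion_smul one_pos (CongruenceSubgroup.one_mem_strictPeriods_Gamma0 p)]
  ext n
  have h := qCoeff_wSlash_restrictGamma0 p f n
  rw [ModularFormClass.qCoeff] at h
  rw [PowerSeries.coeff_smul, h, PowerSeries.coeff_map, coeff_vp, hk]
  split_ifs with hn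
  · rw [ModularFormClass.qCoeff, hf, PowerSeries.coeff_map, smul_eq_mul, zpow_natCast,
      ← mul_assoc, inv_mul_cancel₀ (pow_ne_zero m hp), one_mul]
  · simp

theorem qExpansion_e4V : qExpansion 1 (e4V p) = castC (vp p ModularCurve.eisenstein4) :=
  qExpansion_smul_wSlash p E₄ _ qExpansion_E₄ 3 (by norm_num)

theorem qExpansion_e6V : qExpansion 1 (e6V p) = castC (vp p eisenstein6) :=
  qExpansion_smul_wSlash p E₆ _ qExpansion_E₆ 5 (by norm_num)

end Fermat.Agent.S18lib.Haupt
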