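/-
S18lib / Haupt / Table  (lead)

Verified truncated arithmetic for integer power series: the list of the first `n` coefficients
of a sum / product / power is computed from the lists of the factors by computable list
operations, so that identities "modulo `X^n`" between explicit series reduce to `decide`.
-/
import Mathlib

set_option autoImplicit false

namespace Fermat.Agent.S18lib.Haupt

open PowerSeries

/-- the list of the first `n` coefficients -/
noncomputable def tab (n : ℕ) (a : PowerSeries ℤ) : List ℤ :=
  (List.range n).map fun i => coeff i a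

/-- truncated convolution of two coefficient lists -/
def convL (n : ℕ) (s t : List ℤ) : List ℤ :=
  (List.range n).map fun m =>
    ((List.range (m + 1)).map fun k => s.getD k 0 * t.getD (m - k) 0).sum

/-- coefficientwise sum -/
def addL (n : ℕ) (s t : List ℤ) : List ℤ :=
  (List.range n).map fun m => s.getD m 0 + t.getD m 0

/-- coefficientwise difference -/
def subL (n : ℕ) (s t : List ℤ) : List ℤ :=
  (List.range n).map fun m => s.getD m 0 - t.getD m 0

/-- scalar multiple -/
def smulL (n : ℕ) (c : ℤ) (s : List ℤ) : List ℤ :=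
  (List.range n).map fun m => c * s.getD m 0

/-- truncated power -/
def powL (n : ℕ) (s : List ℤ) : ℕ → List ℤ
  | 0 => (List.range n).map fun m => if m = 0 then 1 else 0
  | (e + 1) => convL n (powL n s e) s

/-- the substitution `q ↦ q^p` on coefficient lists -/
def expandL (n p : ℕ) (s : List ℤ) : List ℤ :=
  (List.range n).map fun m => if p ∣ m then s.getD (m / p) 0 else 0

theorem length_tab (n : ℕ) (a : PowerSeries ℤ) : (tab n a).length = n := by
  simp [tab]

theorem tab_getD (n : ℕ) (a : PowerSeries ℤ) {m : ℕ} (hm : m < n) :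
    (tab n a).getD m 0 = coeff m a := by
  simp [tab, List.getD_eq_getElem?_getD, hm]

theorem tab_congr {n : ℕ} {a b : PowerSeries ℤ} (h : ∀ m < n, coeff m a = coeff m b) :
    tab n a = tab n b := by
  unfold tab
  apply List.map_congr_left
  intro m hm
  exact h m (List.mem_range.mp hm)

theorem coeff_eq_of_tab_eq {n : ℕ} {a b : PowerSeries ℤ} (h : tab n a = tab n b) {m : ℕ}
    (hm : m < n) : coeff m a = coeff m b := by
  rw [← tab_getD n a hm, ← tab_getD n b hm, h]

theorem tab_add (n : ℕ) (a b : PowerSeries ℤ) : tab n (a + b) = addL n (tab n a) (tab n b) := by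
  unfold addL
  conv_lhs => unfold tab
  apply List.map_congr_left
  intro m hm
  have hm' := List.mem_range.mp hm
  rw [tab_getD n a hm', tab_getD n b hm', map_add]

theorem tab_sub (n : ℕ) (a b : PowerSeries ℤ) : tab n (a - b) = subL n (tab n a) (tab n b) := by
  unfold subL
  conv_lhs => unfold tab
  apply List.map_congr_left
  intro m hm
  have hm' := List.mem_range.mp hm
  rw [tab_getD n a hm', tab_getD n b hm', map_sub]

theorem tab_C_mul (n : ℕ) (c : ℤ) (a : PowerSeries ℤ) :
    tab n (C c * a) = smulL n c (tab n a) := by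
  unfold smulL
  conv_lhs => unfold tab
  apply List.map_congr_left
  intro m hm
  have hm' := List.mem_range.mp hm
  rw [tab_getD n a hm', coeff_C_mul]

theorem sum_range_eq_list_sum (f : ℕ → ℤ) (k : ℕ) :
    ∑ i ∈ Finset.range k, f i = ((List.range k).map f).sum := rfl

theorem tab_mul (n : ℕ) (a b : PowerSeries ℤ) : tab n (a * b) = convL n (tab n a) (tab n b) := by
  unfold convL
  conv_lhs => unfold tab
  apply List.map_congr_left
  intro m hm
  have hm' := List.mem_range.mp hm
  rw [coeff_mul, Finset.Nat.sum_antidiagonal_eq_sum_range_succ (fun i j => coeff i a * coeff j b) m,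
    sum_range_eq_list_sum]
  congr 1
  apply List.map_congr_left
  intro k hk
  have hk' := List.mem_range.mp hk
  rw [tab_getD n a (by omega), tab_getD n b (by omega)]

theorem tab_one (n : ℕ) : tab n (1 : PowerSeries ℤ) = powL n [] 0 := by
  unfold powL tab
  apply List.map_congr_left
  intro m _
  rw [coeff_one]

theorem tab_pow (n : ℕ) (a : PowerSeries ℤ) (e : ℕ) : tab n (a ^ e) = powL n (tab n a) e := by
  induction e with
  | zero =>
    rw [pow_zero, tab_one]
    rfl
  | succ e ih =>
    rw [pow_succ, tab_mul, ih]
    rfl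

theorem tab_neg (n : ℕ) (a : PowerSeries ℤ) : tab n (-a) = smulL n (-1) (tab n a) := by
  rw [← tab_C_mul]
  congr 1
  simp

theorem tab_intCast_mul (n : ℕ) (c : ℤ) (a : PowerSeries ℤ) :
    tab n ((c : PowerSeries ℤ) * a) = smulL n c (tab n a) := by
  rw [← tab_C_mul]
  congr 2
  simp

theorem tab_natCast_mul (n : ℕ) (c : ℕ) (a : PowerSeries ℤ) :
    tab n ((c : PowerSeries ℤ) * a) = smulL n (c : ℤ) (tab n a) := by
  rw [← tab_C_mul]
  congr 2

theorem tab_ofNat_mul (n : ℕ) (c : ℕ) [c.AtLeastTwo] (a : PowerSeries ℤ) :
    tab n ((OfNat.ofNat c : PowerSeries ℤ) * a) = smulL n (OfNat.ofNat c : ℤ) (tab n a) := by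
  rw [← tab_C_mul]
  congr 2

/-- the table of a constant -/
def constL (n : ℕ) (c : ℤ) : List ℤ := (List.range n).map fun m => if m = 0 then c else 0

theorem tab_C (n : ℕ) (c : ℤ) : tab n (C c : PowerSeries ℤ) = constL n c := by
  unfold constL tab
  apply List.map_congr_left
  intro m _
  rw [coeff_C]

/-- all coefficients below `n` vanish as soon as the table is the zero list -/
theorem coeff_eq_zero_of_tab {n : ℕ} {a : PowerSeries ℤ}
    (h : tab n a = List.replicate n 0) {m : ℕ} (hm : m < n) : coeff m a = 0 := by
  rw [← tab_getD n a hm, h]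
  simp [List.getD_eq_getElem?_getD, hm]

end Fermat.Agent.S18lib.Haupt
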