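/-
S18lib / Haupt / Tables  (lead)

Explicit coefficient tables of `E₄`, `E₆` and of their `q ↦ q^p` substitutions.
-/
import Mathlib
import Fermat.Agent.S18lib.Haupt.Table
import Fermat.Agent.S18lib.Haupt.Forms

set_option autoImplicit false

namespace Fermat.Agent.S18lib.Haupt

open PowerSeries Fermat.Agent.S16lib.M3

theorem tab_vp (n p : ℕ) (a : PowerSeries ℤ) :
    tab n (vp p a) = expandL n p (tab n a) := by
  unfold expandL
  conv_lhs => unfold tab
  apply List.map_congr_left
  intro m hm
  have hm' := List.mem_range.mp hm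
  rw [coeff_vp]
  split_ifs with h
  · rw [tab_getD n a (lt_of_le_of_lt (Nat.div_le_self m p) hm')]
  · rfl

theorem tab_eisenstein4 :
    tab 6 ModularCurve.eisenstein4 = [1, 240, 2160, 6720, 17520, 30240] := by
  simp only [tab, ModularCurve.eisenstein4, PowerSeries.coeff_mk]
  decide

theorem tab_eisenstein6 :
    tab 6 eisenstein6 = [1, -504, -16632, -122976, -532728, -1575504] := by
  simp only [tab, eisenstein6, PowerSeries.coeff_mk]
  decide

end Fermat.Agent.S18lib.Haupt
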