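/-
S18lib / Haupt / Sturm  (lead)

The four modular identities of levels 2 and 3 between `E₄(z), E₄(pz), E₆(z), E₆(pz)`,
as identities of integer power series, proved by the Sturm bound on `Γ₀(p)`.
-/
import Mathlib
import Fermat.Agent.S18lib.Haupt.Tables
import Fermat.Agent.ProgramR.Counting.Index
import Fermat.Prelude.Thm_ModularForm_sturm_bound_Gamma0

set_option autoImplicit false
set_option linter.unusedSectionVars false

noncomputable section

namespace Fermat.Agent.S18lib.Haupt

open scoped MatrixGroups ModularForm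
open UpperHalfPlane CongruenceSubgroup Matrix ModularForm ModularFormClass EisensteinSeries
open Fermat.Agent.S16lib.M3

variable (p : ℕ) [NeZero p]

local notation "hper" => CongruenceSubgroup.one_mem_strictPeriods_Gamma0 p

/-- `E₄(z) - E₄(pz)` -/
def dE : ModularForm (Gamma0 p) 4 := e4L p - e4V p

/-- `c E₄(pz) - E₄(z)` -/
def cE (c : ℤ) : ModularForm (Gamma0 p) 4 := (c : ℂ) • e4V p - e4L p

/-- `E₄(z) + c E₄(pz)` -/
def sE (c : ℤ) : ModularForm (Gamma0 p) 4 := e4L p + (c : ℂ) • e4V p

/-- `E₄(z)³ - E₆(z)² = 1728 Δ(z)` -/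
def dl : ModularForm (Gamma0 p) 12 :=
  mcast (by norm_num) (((e4L p).mul (e4L p)).mul (e4L p)) - mcast (by norm_num) ((e6L p).mul (e6L p))

/-- `E₄(pz)³ - E₆(pz)² = 1728 Δ(pz)` -/
def dlV : ModularForm (Gamma0 p) 12 :=
  mcast (by norm_num) (((e4V p).mul (e4V p)).mul (e4V p)) - mcast (by norm_num) ((e6V p).mul (e6V p))

/-! formal counterparts -/

/-- `E₄(q) - E₄(q^p)` -/
def dEZ : PowerSeries ℤ := ModularCurve.eisenstein4 - vp p ModularCurve.eisenstein4

/-- `c E₄(q^p) - E₄(q)` -/
def cEZ (c : ℤ) : PowerSeries ℤ :=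
  PowerSeries.C c * vp p ModularCurve.eisenstein4 - ModularCurve.eisenstein4

/-- `E₄(q) + c E₄(q^p)` -/
def sEZ (c : ℤ) : PowerSeries ℤ :=
  ModularCurve.eisenstein4 + PowerSeries.C c * vp p ModularCurve.eisenstein4

/-- `E₄³ - E₆²` -/
def dlZ : PowerSeries ℤ := ModularCurve.eisenstein4 ^ 3 - eisenstein6 ^ 2

/-- `E₄(q^p)³ - E₆(q^p)²` -/
def dlVZ : PowerSeries ℤ := vp p ModularCurve.eisenstein4 ^ 3 - vp p eisenstein6 ^ 2

theorem intCast_smul_castC (c : ℤ) (a : PowerSeries ℤ) :
    (c : ℂ) • castC a = castC (PowerSeries.C c * a) := by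
  ext n
  rw [PowerSeries.coeff_smul, map_mul, PowerSeries.map_C, PowerSeries.coeff_C_mul]
  simp

theorem qExpansion_dE : qExpansion 1 (dE p) = castC (dEZ p) := by
  rw [dE, dEZ, FunLike.coe_sub, ModularForm.qExpansion_sub one_pos hper, qExpansion_e4L, qExpansion_e4V, map_sub]

theorem qExpansion_cE (c : ℤ) : qExpansion 1 (cE p c) = castC (cEZ p c) := by
  rw [cE, cEZ, FunLike.coe_sub, ModularForm.qExpansion_sub one_pos hper, FunLike.coe_smul,
    ModularForm.qExpansion_smul one_pos hper, qExpansion_e4L, qExpansion_e4V, map_sub,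
    intCast_smul_castC]

theorem qExpansion_sE (c : ℤ) : qExpansion 1 (sE p c) = castC (sEZ p c) := by
  rw [sE, sEZ, FunLike.coe_add, ModularForm.qExpansion_add one_pos hper, FunLike.coe_smul,
    ModularForm.qExpansion_smul one_pos hper, qExpansion_e4L, qExpansion_e4V, map_add,
    intCast_smul_castC]

theorem qExpansion_dl : qExpansion 1 (dl p) = castC dlZ := by
  rw [dl, dlZ, FunLike.coe_sub, ModularForm.qExpansion_sub one_pos hper, ModularForm.qExpansion_mcast,
    ModularForm.qExpansion_mcast, ModularForm.qExpansion_mul one_pos hper,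
    ModularForm.qExpansion_mul one_pos hper, ModularForm.qExpansion_mul one_pos hper,
    qExpansion_e4L, qExpansion_e6L, map_sub, map_pow, map_pow]
  ring

theorem qExpansion_dlV : qExpansion 1 (dlV p) = castC (dlVZ p) := by
  rw [dlV, dlVZ, FunLike.coe_sub, ModularForm.qExpansion_sub one_pos hper, ModularForm.qExpansion_mcast,
    ModularForm.qExpansion_mcast, ModularForm.qExpansion_mul one_pos hper,
    ModularForm.qExpansion_mul one_pos hper, ModularForm.qExpansion_mul one_pos hper,
    qExpansion_e4V, qExpansion_e6V, map_sub, map_pow, map_pow]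
  ring

/-- **Sturm step**: a form on `Γ₀(p)` whose `q`-expansion is the image of an integer power series
with vanishing coefficients up to the Sturm bound has zero `q`-expansion. -/
theorem eq_zero_of_tab {k : ℤ} (F : ModularForm (Gamma0 p) k) (a : PowerSeries ℤ)
    (hF : qExpansion 1 F = castC a) (n : ℕ)
    (hn : (k * ((Gamma0 p).index : ℤ)).toNat / 12 < n)
    (ha : tab n a = List.replicate n 0) : a = 0 := by
  have h0 : F = 0 := by
    apply ModularForm.sturm_bound_Gamma0 p
    intro m hm
    rw [hF, PowerSeries.coeff_map, coeff_eq_zero_of_tab ha (lt_of_le_of_lt hm hn)]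
    simp
  apply castC_injective
  rw [← hF, map_zero]
  exact (ModularForm.qExpansion_eq_zero_iff one_pos hper F).mpr h0

theorem index_Gamma0_two : (Gamma0 2).index = 3 := by
  rw [Fermat.Agent.ProgramR.index_Gamma0]
  have h := Fermat.Agent.ProgramR.dedekindPsi_mul_prime_of_not_dvd (M := 1) (p := 2) one_ne_zero
    Nat.prime_two (by norm_num)
  simpa using h

theorem index_Gamma0_three : (Gamma0 3).index = 4 := by
  rw [Fermat.Agent.ProgramR.index_Gamma0]
  have h := Fermat.Agent.ProgramR.dedekindPsi_mul_prime_of_not_dvd (M := 1) (p := 3) one_ne_zero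
    Nat.prime_three (by norm_num)
  simpa using h

end Fermat.Agent.S18lib.Haupt
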