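/-
S18lib / Haupt / Delta  (lead)

`E₄³ - E₆² = 1728 · q ∏ (1 - qⁿ)²⁴` as an identity of integer power series.
-/
import Mathlib
import Fermat.Agent.S18lib.Haupt.Sturm

set_option autoImplicit false
set_option linter.unusedSectionVars false

noncomputable section

namespace Fermat.Agent.S18lib.Haupt

open scoped MatrixGroups ModularForm
open UpperHalfPlane CongruenceSubgroup Matrix ModularForm ModularFormClass EisensteinSeries
open Fermat.Agent.S16lib.M2 Fermat.Agent.S16lib.M3 Fermat.Agent.ProgramR.QExp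

theorem coe_dl_two : (⇑(dl 2) : ℍ → ℂ) = (1728 : ℂ) • (fun τ : ℍ => ModularForm.discriminant τ) := by
  funext z
  have h := ModularForm.discriminant_eq_E₄_cube_sub_E₆_sq z
  simp only [dl, e4L, e6L, Pi.smul_apply, smul_eq_mul, h, _root_.sub_apply,
    ModularForm.coe_mcast, ModularForm.coe_mul, Pi.mul_apply, coe_restrictGamma0]
  ring

/-- `E₄³ - E₆² = 1728 Δ` in `ℤ⟦q⟧`. -/
theorem dlZ_eq : dlZ = PowerSeries.C 1728 * (PowerSeries.X * ModularCurve.dedekindEtaUnit) := by
  apply castC_injective
  have hd : AnalyticAt ℂ (cuspFunction 1 (fun τ : ℍ => ModularForm.discriminant τ)) 0 :=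
    (isHolPerBdd_of_modularForm CuspForm.discriminant).analyticAt one_pos
  rw [← qExpansion_dl 2, coe_dl_two, qExpansion_smul hd,
    qExpansion_discriminant, map_mul, map_mul, PowerSeries.map_C, PowerSeries.map_X,
    ModularCurve.dedekindEtaUnit, map_pow, etaProdC]
  ext n
  simp [PowerSeries.coeff_C_mul]

end Fermat.Agent.S18lib.Haupt
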