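/-
S18lib / Haupt / Identities  (lead)

The four level-2 / level-3 identities, as identities of integer power series:
* `256·1728 (E₄ - E₄')(16E₄' - E₄)² = 240³ (E₄³ - E₆²)`,  `E₄' = E₄(q²)`;
* `16·1728 (E₄ - E₄')²(16E₄' - E₄) = 240³ (E₄'³ - E₆'²)`;
* `27·1728 (E₄ - E₄'')(81E₄'' - E₄)³ = 24·240³ (E₄ + 9E₄'')(E₄³ - E₆²)`,  `E₄'' = E₄(q³)`;
* `3·1728 (81E₄'' - E₄)(E₄ - E₄'')³ = 24·240³ (E₄ + 9E₄'')(E₄''³ - E₆''²)`.
-/
import Mathlib
import Fermat.Agent.S18lib.Haupt.Sturm

set_option autoImplicit false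
set_option linter.unusedSectionVars false

noncomputable section

namespace Fermat.Agent.S18lib.Haupt

open scoped MatrixGroups ModularForm
open UpperHalfPlane CongruenceSubgroup Matrix ModularForm ModularFormClass EisensteinSeries
open Fermat.Agent.S16lib.M3

local notation "hper2" => CongruenceSubgroup.one_mem_strictPeriods_Gamma0 2

/-- the level-2 form `256·1728 (E₄ - E₄')(16E₄' - E₄)² - 240³ (E₄³ - E₆²)` -/
def form2A : ModularForm (Gamma0 2) 12 :=
  (((256 * 1728 : ℤ) : ℂ)) • mcast (by norm_num) (((dE 2).mul (cE 2 16)).mul (cE 2 16))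
    - (((240 ^ 3 : ℤ) : ℂ)) • dl 2

/-- its formal counterpart -/
def series2A : PowerSeries ℤ :=
  PowerSeries.C (256 * 1728) * ((dEZ 2 * cEZ 2 16) * cEZ 2 16) - PowerSeries.C (240 ^ 3) * dlZ

theorem qExpansion_form2A : qExpansion 1 form2A = castC series2A := by
  rw [form2A, series2A, FunLike.coe_sub, ModularForm.qExpansion_sub one_pos hper2,
    FunLike.coe_smul, ModularForm.qExpansion_smul one_pos hper2,
    FunLike.coe_smul, ModularForm.qExpansion_smul one_pos hper2,
    ModularForm.qExpansion_mcast, ModularForm.qExpansion_mul one_pos hper2,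
    ModularForm.qExpansion_mul one_pos hper2, qExpansion_dE, qExpansion_cE, qExpansion_dl,
    ← map_mul, ← map_mul, intCast_smul_castC, intCast_smul_castC, ← map_sub]

theorem series2A_eq_zero : series2A = 0 := by
  refine eq_zero_of_tab 2 form2A series2A qExpansion_form2A 6 ?_ ?_
  · rw [index_Gamma0_two]
    decide
  · simp only [series2A, dEZ, cEZ, dlZ, tab_sub, tab_mul, tab_C, tab_pow, tab_vp,
      tab_eisenstein4, tab_eisenstein6]
    decide

/-- the level-2 form `16·1728 (E₄ - E₄')²(16E₄' - E₄) - 240³ (E₄'³ - E₆'²)` -/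
def form2B : ModularForm (Gamma0 2) 12 :=
  (((16 * 1728 : ℤ) : ℂ)) • mcast (by norm_num) (((dE 2).mul (dE 2)).mul (cE 2 16))
    - (((240 ^ 3 : ℤ) : ℂ)) • dlV 2

/-- its formal counterpart -/
def series2B : PowerSeries ℤ :=
  PowerSeries.C (16 * 1728) * ((dEZ 2 * dEZ 2) * cEZ 2 16) - PowerSeries.C (240 ^ 3) * dlVZ 2

theorem qExpansion_form2B : qExpansion 1 form2B = castC series2B := by
  rw [form2B, series2B, FunLike.coe_sub, ModularForm.qExpansion_sub one_pos hper2,
    FunLike.coe_smul, ModularForm.qExpansion_smul one_pos hper2,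
    FunLike.coe_smul, ModularForm.qExpansion_smul one_pos hper2,
    ModularForm.qExpansion_mcast, ModularForm.qExpansion_mul one_pos hper2,
    ModularForm.qExpansion_mul one_pos hper2, qExpansion_dE, qExpansion_cE, qExpansion_dlV,
    ← map_mul, ← map_mul, intCast_smul_castC, intCast_smul_castC, ← map_sub]

theorem series2B_eq_zero : series2B = 0 := by
  refine eq_zero_of_tab 2 form2B series2B qExpansion_form2B 6 ?_ ?_
  · rw [index_Gamma0_two]
    decide
  · simp only [series2B, dEZ, cEZ, dlVZ, tab_sub, tab_mul, tab_C, tab_pow, tab_vp,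
      tab_eisenstein4, tab_eisenstein6]
    decide

local notation "hper3" => CongruenceSubgroup.one_mem_strictPeriods_Gamma0 3

/-- the level-3 form `27·1728 (E₄ - E₄'')(81E₄'' - E₄)³ - 24·240³ (E₄ + 9E₄'')(E₄³ - E₆²)` -/
def form3A : ModularForm (Gamma0 3) 16 :=
  (((27 * 1728 : ℤ) : ℂ)) •
      mcast (by norm_num) ((((dE 3).mul (cE 3 81)).mul (cE 3 81)).mul (cE 3 81))
    - (((24 * 240 ^ 3 : ℤ) : ℂ)) • mcast (by norm_num) ((sE 3 9).mul (dl 3))

/-- its formal counterpart -/
def series3A : PowerSeries ℤ :=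
  PowerSeries.C (27 * 1728) * (((dEZ 3 * cEZ 3 81) * cEZ 3 81) * cEZ 3 81)
    - PowerSeries.C (24 * 240 ^ 3) * (sEZ 3 9 * dlZ)

theorem qExpansion_form3A : qExpansion 1 form3A = castC series3A := by
  rw [form3A, series3A, FunLike.coe_sub, ModularForm.qExpansion_sub one_pos hper3,
    FunLike.coe_smul, ModularForm.qExpansion_smul one_pos hper3,
    FunLike.coe_smul, ModularForm.qExpansion_smul one_pos hper3,
    ModularForm.qExpansion_mcast, ModularForm.qExpansion_mcast,
    ModularForm.qExpansion_mul one_pos hper3, ModularForm.qExpansion_mul one_pos hper3,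
    ModularForm.qExpansion_mul one_pos hper3, ModularForm.qExpansion_mul one_pos hper3,
    qExpansion_dE, qExpansion_cE, qExpansion_dl, qExpansion_sE,
    ← map_mul, ← map_mul, ← map_mul, ← map_mul, intCast_smul_castC, intCast_smul_castC, ← map_sub]

theorem series3A_eq_zero : series3A = 0 := by
  refine eq_zero_of_tab 3 form3A series3A qExpansion_form3A 6 ?_ ?_
  · rw [index_Gamma0_three]
    decide
  · simp only [series3A, dEZ, cEZ, sEZ, dlZ, tab_sub, tab_add, tab_mul, tab_C, tab_pow, tab_vp,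
      tab_eisenstein4, tab_eisenstein6]
    decide

/-- the level-3 form `3·1728 (81E₄'' - E₄)(E₄ - E₄'')³ - 24·240³ (E₄ + 9E₄'')(E₄''³ - E₆''²)` -/
def form3B : ModularForm (Gamma0 3) 16 :=
  (((3 * 1728 : ℤ) : ℂ)) •
      mcast (by norm_num) ((((cE 3 81).mul (dE 3)).mul (dE 3)).mul (dE 3))
    - (((24 * 240 ^ 3 : ℤ) : ℂ)) • mcast (by norm_num) ((sE 3 9).mul (dlV 3))

/-- its formal counterpart -/
def series3B : PowerSeries ℤ :=
  PowerSeries.C (3 * 1728) * (((cEZ 3 81 * dEZ 3) * dEZ 3) * dEZ 3)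
    - PowerSeries.C (24 * 240 ^ 3) * (sEZ 3 9 * dlVZ 3)

theorem qExpansion_form3B : qExpansion 1 form3B = castC series3B := by
  rw [form3B, series3B, FunLike.coe_sub, ModularForm.qExpansion_sub one_pos hper3,
    FunLike.coe_smul, ModularForm.qExpansion_smul one_pos hper3,
    FunLike.coe_smul, ModularForm.qExpansion_smul one_pos hper3,
    ModularForm.qExpansion_mcast, ModularForm.qExpansion_mcast,
    ModularForm.qExpansion_mul one_pos hper3, ModularForm.qExpansion_mul one_pos hper3,
    ModularForm.qExpansion_mul one_pos hper3, ModularForm.qExpansion_mul one_pos hper3,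
    qExpansion_dE, qExpansion_cE, qExpansion_dlV, qExpansion_sE,
    ← map_mul, ← map_mul, ← map_mul, ← map_mul, intCast_smul_castC, intCast_smul_castC, ← map_sub]

theorem series3B_eq_zero : series3B = 0 := by
  refine eq_zero_of_tab 3 form3B series3B qExpansion_form3B 6 ?_ ?_
  · rw [index_Gamma0_three]
    decide
  · simp only [series3B, dEZ, cEZ, sEZ, dlVZ, tab_sub, tab_add, tab_mul, tab_C, tab_pow, tab_vp,
      tab_eisenstein4, tab_eisenstein6]
    decide

end Fermat.Agent.S18lib.Haupt
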