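/-
S18lib / Haupt / Laurent  (lead)

From the four level-2 / level-3 Eisenstein identities to identities in `ℤ⟦q⟧` between
`E₄`, `w_p = (E₄(q) - E₄(q^p))/240`, `Δ(q)`, `Δ(q^p)`:
* `Δ = w (E₄ - 256 w)²`, `Δ(q²) = w² (E₄ - 256 w)`  (`p = 2`);
* `(E₄ - 216 w) Δ = w (E₄ - 243 w)³`, `(E₄ - 216 w) Δ(q³) = w³ (E₄ - 243 w)`  (`p = 3`).
-/
import Mathlib
import Fermat.Agent.S18lib.Haupt.Identities
import Fermat.Agent.S18lib.Haupt.Delta
import Fermat.Agent.S18lib.Haupt.Monic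

set_option autoImplicit false

noncomputable section

namespace Fermat.Agent.S18lib.Haupt

open HahnSeries ModularCurve Fermat.Agent.S16lib.M3

/-- the embedding `ℤ⟦q⟧ → ℤ((q))` -/
abbrev ofPS : PowerSeries ℤ →+* LaurentSeries ℤ := HahnSeries.ofPowerSeries ℤ ℤ

theorem ofPS_injective : Function.Injective ofPS := HahnSeries.ofPowerSeries_injective

theorem qExpand_ofPS (p : ℕ) [NeZero p] (a : PowerSeries ℤ) :
    qExpand ℤ p (ofPS a) = ofPS (vp p a) := by
  ext k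
  rcases le_or_gt 0 k with hk | hk
  · lift k to ℕ using hk
    rw [HahnSeries.ofPowerSeries_apply_coeff, coeff_vp]
    split_ifs with h
    · obtain ⟨m, rfl⟩ := h
      rw [Nat.cast_mul, qExpand_coeff_mul, HahnSeries.ofPowerSeries_apply_coeff,
        Nat.mul_div_cancel_left _ (Nat.pos_of_ne_zero (NeZero.ne p))]
    · exact qExpand_coeff_of_not_dvd p _ (by rwa [Int.natCast_dvd_natCast])
  · rw [ofPowerSeries_coeff_of_neg _ hk]
    by_cases hd : (p : ℤ) ∣ k
    · obtain ⟨m, rfl⟩ := hd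
      rw [qExpand_coeff_mul]
      refine ofPowerSeries_coeff_of_neg _ ?_
      by_contra hm
      push Not at hm
      have : (0 : ℤ) ≤ (p : ℤ) * m := mul_nonneg (Int.natCast_nonneg p) hm
      omega
    · exact qExpand_coeff_of_not_dvd p _ hd

section vpHom

variable (p : ℕ) [NeZero p]

theorem vp_mul (a b : PowerSeries ℤ) : vp p (a * b) = vp p a * vp p b := by
  apply ofPS_injective
  rw [← qExpand_ofPS, map_mul, map_mul, map_mul, qExpand_ofPS, qExpand_ofPS]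

theorem vp_sub (a b : PowerSeries ℤ) : vp p (a - b) = vp p a - vp p b := by
  apply ofPS_injective
  rw [← qExpand_ofPS, map_sub, map_sub, map_sub, qExpand_ofPS, qExpand_ofPS]

theorem vp_pow (a : PowerSeries ℤ) (n : ℕ) : vp p (a ^ n) = vp p a ^ n := by
  apply ofPS_injective
  rw [← qExpand_ofPS, map_pow, map_pow, map_pow, qExpand_ofPS]

theorem vp_C (c : ℤ) : vp p (PowerSeries.C c) = PowerSeries.C c := by
  apply ofPS_injective
  rw [← qExpand_ofPS, HahnSeries.ofPowerSeries_C, qExpand_C]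

end vpHom

/-- `σ₃` -/
def sigma3 (n : ℕ) : ℤ := ∑ d ∈ n.divisors, (d : ℤ) ^ 3

/-- `w_p = (E₄(q) - E₄(q^p)) / 240` -/
def wZ (p : ℕ) : PowerSeries ℤ :=
  PowerSeries.mk fun n => if n = 0 then 0 else sigma3 n - (if p ∣ n then sigma3 (n / p) else 0)

/-- `w_p / q` -/
def uZ (p : ℕ) : PowerSeries ℤ := PowerSeries.mk fun n => PowerSeries.coeff (n + 1) (wZ p)

theorem dEZ_eq (p : ℕ) [NeZero p] : dEZ p = PowerSeries.C 240 * wZ p := by
  ext n
  rw [dEZ, map_sub, coeff_vp, PowerSeries.coeff_C_mul, wZ, PowerSeries.coeff_mk,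
    ModularCurve.eisenstein4, PowerSeries.coeff_mk, PowerSeries.coeff_mk]
  by_cases hn : n = 0
  · subst hn
    simp
  · rw [if_neg hn, if_neg hn]
    by_cases hp : p ∣ n
    · have h1 : n / p ≠ 0 := by
        obtain ⟨m, rfl⟩ := hp
        rw [Nat.mul_div_cancel_left _ (Nat.pos_of_ne_zero (NeZero.ne p))]
        rintro rfl
        exact hn (mul_zero p)
      rw [if_pos hp, if_pos hp, if_neg h1, sigma3, sigma3]
      ring
    · rw [if_neg hp, if_neg hp, sigma3]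
      ring

theorem wZ_eq (p : ℕ) : wZ p = PowerSeries.X * uZ p := by
  ext n
  cases n with
  | zero => simp [wZ]
  | succ n => rw [PowerSeries.coeff_succ_X_mul, uZ, PowerSeries.coeff_mk]

theorem constantCoeff_uZ (p : ℕ) (hp : 2 ≤ p) : PowerSeries.constantCoeff (uZ p) = 1 := by
  rw [← PowerSeries.coeff_zero_eq_constantCoeff_apply, uZ, PowerSeries.coeff_mk, wZ,
    PowerSeries.coeff_mk]
  have h1 : ¬ p ∣ 0 + 1 := by
    intro h
    have := Nat.le_of_dvd (by norm_num) h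
    omega
  rw [if_neg (by norm_num), if_neg h1, sigma3]
  simp

theorem vp_eisenstein4 (p : ℕ) [NeZero p] :
    vp p ModularCurve.eisenstein4 = ModularCurve.eisenstein4 - PowerSeries.C 240 * wZ p := by
  rw [← dEZ_eq, dEZ]
  ring

/-- `Δ = q ∏ (1 - qⁿ)²⁴` in `ℤ⟦q⟧` -/
def DZ : PowerSeries ℤ := PowerSeries.X * ModularCurve.dedekindEtaUnit

theorem dlVZ_eq (p : ℕ) [NeZero p] : dlVZ p = PowerSeries.C 1728 * vp p DZ := by
  rw [dlVZ, ← vp_pow, ← vp_pow, ← vp_sub, ← dlZ, dlZ_eq, vp_mul, vp_C, DZ]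

theorem C_ne_zero' {c : ℤ} (hc : c ≠ 0) : (PowerSeries.C c : PowerSeries ℤ) ≠ 0 := by
  intro h
  have := congrArg (PowerSeries.constantCoeff (R := ℤ)) h
  rw [PowerSeries.constantCoeff_C, map_zero] at this
  exact hc this

local notation "E4" => ModularCurve.eisenstein4

/-- `Δ = w (E₄ - 256 w)²`, `w = w₂` -/
theorem DZ_eq_two : wZ 2 * (E4 - PowerSeries.C 256 * wZ 2) ^ 2 = DZ := by
  have h := series2A_eq_zero
  rw [series2A, cEZ, vp_eisenstein4, dEZ_eq, dlZ_eq, ← DZ] at h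
  apply mul_left_cancel₀ (C_ne_zero' (c := 240 ^ 3 * 1728) (by norm_num))
  simp only [map_mul, map_pow, map_ofNat] at h ⊢
  linear_combination h

/-- `Δ(q²) = w² (E₄ - 256 w)`, `w = w₂` -/
theorem vp_DZ_two : wZ 2 ^ 2 * (E4 - PowerSeries.C 256 * wZ 2) = vp 2 DZ := by
  have h := series2B_eq_zero
  rw [series2B, cEZ, vp_eisenstein4, dEZ_eq, dlVZ_eq] at h
  apply mul_left_cancel₀ (C_ne_zero' (c := 240 ^ 3 * 1728) (by norm_num))
  simp only [map_mul, map_pow, map_ofNat] at h ⊢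
  linear_combination h

/-- `(E₄ - 216 w) Δ = w (E₄ - 243 w)³`, `w = w₃` -/
theorem DZ_eq_three :
    wZ 3 * (E4 - PowerSeries.C 243 * wZ 3) ^ 3 = (E4 - PowerSeries.C 216 * wZ 3) * DZ := by
  have h := series3A_eq_zero
  rw [series3A, cEZ, sEZ, vp_eisenstein4, dEZ_eq, dlZ_eq, ← DZ] at h
  apply mul_left_cancel₀ (C_ne_zero' (c := 240 ^ 4 * 1728) (by norm_num))
  simp only [map_mul, map_pow, map_ofNat] at h ⊢
  linear_combination h

/-- `(E₄ - 216 w) Δ(q³) = w³ (E₄ - 243 w)`, `w = w₃` -/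
theorem vp_DZ_three :
    wZ 3 ^ 3 * (E4 - PowerSeries.C 243 * wZ 3) = (E4 - PowerSeries.C 216 * wZ 3) * vp 3 DZ := by
  have h := series3B_eq_zero
  rw [series3B, cEZ, sEZ, vp_eisenstein4, dEZ_eq, dlVZ_eq] at h
  apply mul_left_cancel₀ (C_ne_zero' (c := 240 ^ 4 * 1728) (by norm_num))
  simp only [map_mul, map_pow, map_ofNat] at h ⊢
  linear_combination h

end Fermat.Agent.S18lib.Haupt
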