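/-
S18lib / Haupt / Hp  (lead)

The Hauptmoduln `h₂ = Δ(q)/Δ(q²)` and `h₃ = (Δ(q)/Δ(q³))^{1/2}` of `X₀(2)`, `X₀(3)` as explicit
elements of `ℤ((q))`, with their relations to `j(q)`, `j(q^p)`:
* `j h₂² = (h₂ + 256)³`, `j(q²) h₂ = (h₂ + 16)³`, `h₂ Δ(q²) = Δ(q)`;
* `j h₃³ = (h₃ + 27)(h₃ + 243)³`, `j(q³) h₃ = (h₃ + 27)(h₃ + 3)³`, `h₃² Δ(q³) = Δ(q)`.
-/
import Mathlib
import Fermat.Agent.S18lib.Haupt.Laurent
import Fermat.Agent.S28lib.Defs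

set_option autoImplicit false

noncomputable section

namespace Fermat.Agent.S18lib.Haupt

open HahnSeries ModularCurve Fermat.Agent.S16lib.M3 Fermat.Agent.S28lib

/-- `E₄` in `ℤ((q))` -/
def EL : LaurentSeries ℤ := ofPS ModularCurve.eisenstein4

/-- `w_p` in `ℤ((q))` -/
def WL (p : ℕ) : LaurentSeries ℤ := ofPS (wZ p)

/-- `1 / w_p` in `ℤ((q))` -/
def WI (p : ℕ) : LaurentSeries ℤ :=
  HahnSeries.single (-1 : ℤ) (1 : ℤ) * ofPS (PowerSeries.invOfUnit (uZ p) 1)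

/-- `Δ` in `ℤ((q))` -/
def DL : LaurentSeries ℤ := ofPS DZ

/-- `j` in `ℤ((q))` -/
abbrev JL : LaurentSeries ℤ := jqModC ℤ

theorem map_castRingHom_int (a : PowerSeries ℤ) : a.map (Int.castRingHom ℤ) = a := by
  ext n
  simp

theorem DL_eq : DL = DeltaQ ℤ := by
  rw [DL, DZ, DeltaQ, map_mul, HahnSeries.ofPowerSeries_X, map_castRingHom_int]

theorem JL_mul_DL : JL * DL = EL ^ 3 := by
  rw [JL, jqModC, DL, DZ, map_castRingHom_int, jNum, EL, map_mul, map_mul, map_pow,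
    HahnSeries.ofPowerSeries_X]
  have h1 : ofPS dedekindEtaUnitInv * ofPS dedekindEtaUnit = 1 := by
    rw [← map_mul, mul_comm, dedekindEtaUnit_mul_inv, RingHom.map_one]
  have h2 : (HahnSeries.single (-1 : ℤ) (1 : ℤ) * HahnSeries.single (1 : ℤ) (1 : ℤ) :
      LaurentSeries ℤ) = 1 := by
    rw [single_one_mul_single_one]; rfl
  linear_combination (ofPS ModularCurve.eisenstein4 ^ 3 *
    (HahnSeries.single (-1 : ℤ) (1 : ℤ) * HahnSeries.single (1 : ℤ) (1 : ℤ))) * h1 +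
    (ofPS ModularCurve.eisenstein4 ^ 3) * h2

theorem monicAt_EL : MonicAt 0 EL :=
  ⟨ModularCurve.eisenstein4, constantCoeff_eisenstein4, by rw [single_zero_one_eq, one_mul]; rfl⟩

theorem WL_mul_WI (p : ℕ) (hp : 2 ≤ p) : WL p * WI p = 1 := by
  have h1 : uZ p * PowerSeries.invOfUnit (uZ p) 1 = 1 :=
    PowerSeries.mul_invOfUnit (uZ p) 1 (by rw [constantCoeff_uZ p hp]; rfl)
  have h2 : (HahnSeries.single (1 : ℤ) (1 : ℤ) * HahnSeries.single (-1 : ℤ) (1 : ℤ) :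
      LaurentSeries ℤ) = 1 := by
    rw [single_one_mul_single_one]; rfl
  have h3 : ofPS (uZ p) * ofPS (PowerSeries.invOfUnit (uZ p) 1) = 1 := by
    rw [← map_mul, h1, RingHom.map_one]
  rw [WL, WI, wZ_eq, map_mul, HahnSeries.ofPowerSeries_X]
  linear_combination (HahnSeries.single (1 : ℤ) (1 : ℤ) * HahnSeries.single (-1 : ℤ) (1 : ℤ)) * h3
    + h2

theorem monicAt_WI (p : ℕ) (hp : 2 ≤ p) : MonicAt (-1) (WI p) := by
  refine ⟨PowerSeries.invOfUnit (uZ p) 1, ?_, rfl⟩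
  have h1 : uZ p * PowerSeries.invOfUnit (uZ p) 1 = 1 :=
    PowerSeries.mul_invOfUnit (uZ p) 1 (by rw [constantCoeff_uZ p hp]; rfl)
  have h2 := congrArg (PowerSeries.constantCoeff (R := ℤ)) h1
  rwa [map_mul, constantCoeff_uZ p hp, one_mul, map_one] at h2

theorem monicAt_WL (p : ℕ) (hp : 2 ≤ p) : MonicAt 1 (WL p) :=
  ⟨uZ p, constantCoeff_uZ p hp, by rw [WL, wZ_eq, map_mul, HahnSeries.ofPowerSeries_X]⟩

theorem WL_ne_zero (p : ℕ) (hp : 2 ≤ p) : WL p ≠ 0 := (monicAt_WL p hp).ne_zero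

/-- `y_p = 240 E₄(q) / (E₄(q) - E₄(q^p))` -/
def yL (p : ℕ) : LaurentSeries ℤ := EL * WI p

theorem yL_mul_WL (p : ℕ) (hp : 2 ≤ p) : yL p * WL p = EL := by
  rw [yL, mul_assoc, mul_comm (WI p), WL_mul_WI p hp, mul_one]

theorem monicAt_yL (p : ℕ) (hp : 2 ≤ p) : MonicAt (-1) (yL p) := by
  have h := monicAt_EL.mul (monicAt_WI p hp)
  rwa [zero_add] at h

/-- `E₄(q^p) = E₄(q) - 240 w_p` -/
theorem qExpand_EL (p : ℕ) [NeZero p] : qExpand ℤ p EL = EL - 240 * WL p := by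
  rw [EL, qExpand_ofPS, vp_eisenstein4, map_sub, map_mul, WL]
  congr 2
  rw [show (PowerSeries.C (240 : ℤ) : PowerSeries ℤ) = ((240 : ℕ) : PowerSeries ℤ) by
    rw [map_ofNat]; rfl, map_natCast]
  rfl

/-! ### level 2 -/

/-- the Hauptmodul `h₂ = Δ(q)/Δ(q²) = q⁻¹ - 24 + 276 q - ⋯` of `X₀(2)` -/
def h2 : LaurentSeries ℤ := yL 2 - 256

theorem monicAt_h2 : MonicAt (-1) h2 :=
  (monicAt_yL 2 le_rfl).sub_ordGE (ordGE_ofNat 256) (by norm_num)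

theorem ofPS_C (c : ℕ) [c.AtLeastTwo] :
    ofPS (PowerSeries.C (OfNat.ofNat c : ℤ)) = (OfNat.ofNat c : LaurentSeries ℤ) := by
  rw [map_ofNat, map_ofNat]

theorem DL_eq_two : DL = WL 2 ^ 3 * h2 ^ 2 := by
  rw [DL, ← DZ_eq_two, map_mul, map_pow, map_sub, map_mul, ofPS_C, ← WL, ← EL,
    ← yL_mul_WL 2 le_rfl, h2]
  ring

theorem qExpand_DL_two : qExpand ℤ 2 DL = WL 2 ^ 3 * h2 := by
  rw [DL, qExpand_ofPS, ← vp_DZ_two, map_mul, map_pow, map_sub, map_mul, ofPS_C, ← WL, ← EL,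
    ← yL_mul_WL 2 le_rfl, h2]
  ring

/-- `j h₂² = (h₂ + 256)³` -/
theorem JL_mul_h2 : JL * h2 ^ 2 = (h2 + 256) ^ 3 := by
  apply mul_right_cancel₀ (pow_ne_zero 3 (WL_ne_zero 2 le_rfl))
  have h1 := JL_mul_DL
  rw [DL_eq_two, ← yL_mul_WL 2 le_rfl] at h1
  rw [h2]
  rw [h2] at h1
  linear_combination h1

/-- `j(q²) h₂ = (h₂ + 16)³` -/
theorem qExpand_JL_mul_h2 : qExpand ℤ 2 JL * h2 = (h2 + 16) ^ 3 := by
  apply mul_right_cancel₀ (pow_ne_zero 3 (WL_ne_zero 2 le_rfl))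
  have h1 := congrArg (qExpand ℤ 2) JL_mul_DL
  rw [map_mul, map_pow, qExpand_DL_two, qExpand_EL, ← yL_mul_WL 2 le_rfl] at h1
  rw [h2]
  rw [h2] at h1
  linear_combination h1

/-- `h₂ Δ(q²) = Δ(q)` -/
theorem h2_mul_qExpand_DL : h2 * qExpand ℤ 2 DL = DL := by
  rw [qExpand_DL_two, DL_eq_two]
  ring

/-! ### level 3 -/

/-- the Hauptmodul `h₃ = (Δ(q)/Δ(q³))^{1/2} = q⁻¹ - 12 + 54 q - ⋯` of `X₀(3)` -/
def h3 : LaurentSeries ℤ := yL 3 - 243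

theorem monicAt_h3 : MonicAt (-1) h3 :=
  (monicAt_yL 3 (by norm_num)).sub_ordGE (ordGE_ofNat 243) (by norm_num)

theorem monicAt_h3_add : MonicAt (-1) (h3 + 27) :=
  monicAt_h3.add_ordGE (ordGE_ofNat 27) (by norm_num)

theorem DL_eq_three : (h3 + 27) * DL = WL 3 ^ 3 * h3 ^ 3 := by
  apply mul_left_cancel₀ (WL_ne_zero 3 (by norm_num))
  have h := congrArg ofPS DZ_eq_three
  rw [map_mul, map_mul, map_pow, map_sub, map_sub, map_mul, map_mul, ofPS_C, ofPS_C, ← WL, ← EL,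
    ← DL, ← yL_mul_WL 3 (by norm_num)] at h
  rw [h3]
  linear_combination -h

theorem qExpand_DL_three : (h3 + 27) * qExpand ℤ 3 DL = WL 3 ^ 3 * h3 := by
  apply mul_left_cancel₀ (WL_ne_zero 3 (by norm_num))
  have h := congrArg ofPS vp_DZ_three
  rw [map_mul, map_mul, map_pow, map_sub, map_sub, map_mul, map_mul, ofPS_C, ofPS_C, ← WL, ← EL,
    ← qExpand_ofPS, ← DL, ← yL_mul_WL 3 (by norm_num)] at h
  rw [h3]
  linear_combination -h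

/-- `j h₃³ = (h₃ + 27)(h₃ + 243)³` -/
theorem JL_mul_h3 : JL * h3 ^ 3 = (h3 + 27) * (h3 + 243) ^ 3 := by
  apply mul_right_cancel₀ (pow_ne_zero 3 (WL_ne_zero 3 (by norm_num)))
  have h1 := JL_mul_DL
  have h2 := DL_eq_three
  rw [← yL_mul_WL 3 (by norm_num)] at h1
  rw [h3] at h2 ⊢
  linear_combination (yL 3 - 243 + 27) * h1 - JL * h2

/-- `j(q³) h₃ = (h₃ + 27)(h₃ + 3)³` -/
theorem qExpand_JL_mul_h3 : qExpand ℤ 3 JL * h3 = (h3 + 27) * (h3 + 3) ^ 3 := by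
  apply mul_right_cancel₀ (pow_ne_zero 3 (WL_ne_zero 3 (by norm_num)))
  have h1 := congrArg (qExpand ℤ 3) JL_mul_DL
  have h2 := qExpand_DL_three
  rw [map_mul, map_pow, qExpand_EL, ← yL_mul_WL 3 (by norm_num)] at h1
  rw [h3] at h2 ⊢
  linear_combination (yL 3 - 243 + 27) * h1 - qExpand ℤ 3 JL * h2

/-- `h₃² Δ(q³) = Δ(q)` -/
theorem h3_sq_mul_qExpand_DL : h3 ^ 2 * qExpand ℤ 3 DL = DL := by
  apply mul_left_cancel₀ monicAt_h3_add.ne_zero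
  linear_combination h3 ^ 2 * qExpand_DL_three - DL_eq_three

end Fermat.Agent.S18lib.Haupt
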