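/-
S18lib / Haupt / Level4  (lead)

The Hauptmodul `μ₄ = (η(z)/η(4z))⁸ = q⁻¹ - 8 + 20 q - ⋯` of `X₀(4)` as an explicit element of
`ℤ((q))`: with `h = h₂(q)`, `g = h₂(q²)`,
`μ₄ = (g - 16 h)/(h + 16)`, `h (μ₄ + 16) = μ₄²`, `g = μ₄ (μ₄ + 16)`,
`j μ₄⁴ (μ₄ + 16) = (μ₄² + 256 μ₄ + 4096)³`.
-/
import Mathlib
import Fermat.Agent.S18lib.Haupt.Hp

set_option autoImplicit false

noncomputable section

namespace Fermat.Agent.S18lib.Haupt

open HahnSeries ModularCurve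

/-- `h₂(q²)` -/
def g2 : LaurentSeries ℤ := qExpand ℤ 2 h2

theorem monicAt_g2 : MonicAt (-2) g2 := by
  have h := monicAt_h2.qExpand 2
  rw [g2]
  simpa using h

theorem monicAt_h2_add : MonicAt (-1) (h2 + 16) :=
  monicAt_h2.add_ordGE (ordGE_ofNat 16) (by norm_num)

/-- `j(q²) g² = (g + 256)³` -/
theorem qExpand_JL_mul_g2 : qExpand ℤ 2 JL * g2 ^ 2 = (g2 + 256) ^ 3 := by
  have h := congrArg (qExpand ℤ 2) JL_mul_h2
  rwa [map_mul, map_pow, map_pow, map_add, map_ofNat] at h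

/-- the modular relation between `h₂(q)` and `h₂(q²)` (the `X₀(4)` factor) -/
theorem psi4 : g2 ^ 2 - h2 ^ 2 * g2 - 48 * h2 * g2 - 4096 * h2 = 0 := by
  have h1 : (h2 + 16) ^ 3 * g2 ^ 2 = (g2 + 256) ^ 3 * h2 := by
    rw [← qExpand_JL_mul_h2, ← qExpand_JL_mul_g2]
    ring
  have h2' : MonicAt (-3) (h2 * g2) := by
    have := monicAt_h2.mul monicAt_g2
    simpa using this
  have h3 : h2 * g2 - 4096 ≠ 0 :=
    (h2'.sub_ordGE (ordGE_ofNat 4096) (by norm_num)).ne_zero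
  apply mul_left_cancel₀ h3
  linear_combination -h1

/-- the Hauptmodul of `X₀(4)` -/
def mu4 : LaurentSeries ℤ := (g2 - 16 * h2) * Ring.inverse (h2 + 16)

theorem mu4_mul : mu4 * (h2 + 16) = g2 - 16 * h2 := by
  rw [mu4, mul_assoc, Ring.inverse_mul_cancel _ monicAt_h2_add.isUnit, mul_one]

theorem monicAt_inverse {R : Type*} [CommRing R] {n : ℤ} {x : LaurentSeries R}
    (hx : MonicAt n x) : MonicAt (-n) (Ring.inverse x) := by
  obtain ⟨y, hy, hxy⟩ := hx.exists_inv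
  have : Ring.inverse x = y := by
    calc Ring.inverse x = Ring.inverse x * (x * y) := by rw [hxy, mul_one]
      _ = (Ring.inverse x * x) * y := by ring
      _ = y := by rw [Ring.inverse_mul_cancel _ hx.isUnit, one_mul]
  rwa [this]

theorem monicAt_mu4 : MonicAt (-1) mu4 := by
  have h1 : MonicAt (-2) (g2 - 16 * h2) := by
    refine monicAt_g2.sub_ordGE (m := -1) ?_ (by norm_num)
    have := (ordGE_ofNat (R := ℤ) 16).mul monicAt_h2.ordGE
    simpa using this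
  have h2' := h1.mul (monicAt_inverse monicAt_h2_add)
  rw [mu4]
  simpa using h2'

/-- `h₂ (μ₄ + 16) = μ₄²` -/
theorem h2_mul_mu4 : h2 * (mu4 + 16) = mu4 ^ 2 := by
  apply mul_right_cancel₀ (pow_ne_zero 2 monicAt_h2_add.ne_zero)
  have h1 := mu4_mul
  have h2' := psi4
  linear_combination (-(mu4 * (h2 + 16)) - (g2 - 16 * h2) + h2 * (h2 + 16)) * h1 - h2'

/-- `h₂(q²) = μ₄ (μ₄ + 16)` -/
theorem g2_eq_mu4 : g2 = mu4 * (mu4 + 16) := by
  apply mul_right_cancel₀ (pow_ne_zero 2 monicAt_h2_add.ne_zero)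
  have h1 := mu4_mul
  have h2' := psi4
  linear_combination (-(mu4 * (h2 + 16)) - (g2 - 16 * h2) - 16 * (h2 + 16)) * h1 - h2'

/-- `j μ₄⁴ (μ₄ + 16) = (μ₄² + 256 μ₄ + 4096)³` -/
theorem JL_mul_mu4 : JL * (mu4 ^ 4 * (mu4 + 16)) = (mu4 ^ 2 + 256 * mu4 + 4096) ^ 3 := by
  have h1 := JL_mul_h2
  have h2' := h2_mul_mu4
  have h3 : JL * (mu4 ^ 4 * (mu4 + 16)) = JL * h2 ^ 2 * (mu4 + 16) ^ 3 := by
    linear_combination (-JL * (mu4 + 16) * (h2 * (mu4 + 16) + mu4 ^ 2)) * h2'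
  rw [h3, h1, ← mul_pow]
  congr 1
  linear_combination h2'

end Fermat.Agent.S18lib.Haupt
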