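/-
S18lib / Haupt / Level9  (lead)

The Hauptmodul `μ₉ = (η(z)/η(9z))³ = q⁻¹ - 3 + 5 q² - ⋯` of `X₀(9)` as an explicit element of
`ℤ((q))`: with `h = h₃(q)`, `g = h₃(q³)`,
`μ₉ = (g (h² + 18 h + 27) + 1458 h)/((h + 9) g - 243 h + 729)`,
`h (μ₉² + 9 μ₉ + 27) = μ₉³`, `g = μ₉ (μ₉² + 9 μ₉ + 27)`,
`j μ₉⁹ (μ₉² + 9 μ₉ + 27) = (μ₉ + 9)³ (μ₉³ + 243 μ₉² + 2187 μ₉ + 6561)³`.
-/
import Mathlib
import Fermat.Agent.S18lib.Haupt.Level4

set_option autoImplicit false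

noncomputable section

namespace Fermat.Agent.S18lib.Haupt

open HahnSeries ModularCurve

/-- `h₃(q³)` -/
def g3 : LaurentSeries ℤ := qExpand ℤ 3 h3

theorem monicAt_g3 : MonicAt (-3) g3 := by
  have h := monicAt_h3.qExpand 3
  rw [g3]
  simpa using h

/-- `j(q³) g³ = (g + 27)(g + 243)³` -/
theorem qExpand_JL_mul_g3 : qExpand ℤ 3 JL * g3 ^ 3 = (g3 + 27) * (g3 + 243) ^ 3 := by
  have h := congrArg (qExpand ℤ 3) JL_mul_h3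
  rwa [map_mul, map_pow, map_mul, map_pow, map_add, map_add, map_ofNat, map_ofNat] at h

/-- the modular relation between `h₃(q)` and `h₃(q³)` (the `X₀(9)` factor) -/
theorem psi9 : g3 ^ 3 - h3 ^ 3 * g3 ^ 2 - 36 * h3 ^ 2 * g3 ^ 2 - 270 * h3 * g3 ^ 2
    - 729 * h3 ^ 2 * g3 - 26244 * h3 * g3 - 531441 * h3 = 0 := by
  have h1 : (h3 + 27) * (h3 + 3) ^ 3 * g3 ^ 3 = (g3 + 27) * (g3 + 243) ^ 3 * h3 := by
    rw [← qExpand_JL_mul_h3, ← qExpand_JL_mul_g3]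
    ring
  have h2' : MonicAt (-4) (h3 * g3) := by
    have := monicAt_h3.mul monicAt_g3
    simpa using this
  have h3' : h3 * g3 - 729 ≠ 0 :=
    (h2'.sub_ordGE (ordGE_ofNat 729) (by norm_num)).ne_zero
  apply mul_left_cancel₀ h3'
  linear_combination -h1

/-- numerator of `μ₉` -/
def Nmu9 : LaurentSeries ℤ := g3 * (h3 ^ 2 + 18 * h3 + 27) + 1458 * h3

/-- denominator of `μ₉` -/
def Dmu9 : LaurentSeries ℤ := (h3 + 9) * g3 - 243 * h3 + 729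

theorem monicAt_Nmu9 : MonicAt (-5) Nmu9 := by
  have h1 : MonicAt (-5) (g3 * h3 ^ 2) := by
    have := monicAt_g3.mul (monicAt_h3.pow 2)
    simpa using this
  have h2 : OrdGE (-4) (g3 * (18 * h3 + 27) + 1458 * h3) := by
    have a1 : OrdGE (-1) (18 * h3 + 27) := by
      have := ((ordGE_ofNat (R := ℤ) 18).mul monicAt_h3.ordGE)
      rw [zero_add] at this
      exact this.add ((ordGE_ofNat 27).mono (by norm_num))
    have a2 := monicAt_g3.ordGE.mul a1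
    have a3 := ((ordGE_ofNat (R := ℤ) 1458).mul monicAt_h3.ordGE)
    rw [zero_add] at a3
    exact (a2.mono (by norm_num)).add (a3.mono (by norm_num))
  have h3' := h1.add_ordGE h2 (by norm_num)
  have e : Nmu9 = g3 * h3 ^ 2 + (g3 * (18 * h3 + 27) + 1458 * h3) := by
    rw [Nmu9]; ring
  rwa [e]

theorem monicAt_Dmu9 : MonicAt (-4) Dmu9 := by
  have h1 : MonicAt (-4) (h3 * g3) := by
    have := monicAt_h3.mul monicAt_g3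
    simpa using this
  have h2 : OrdGE (-3) (9 * g3 - 243 * h3 + 729) := by
    have a1 := ((ordGE_ofNat (R := ℤ) 9).mul monicAt_g3.ordGE)
    rw [zero_add] at a1
    have a2 := ((ordGE_ofNat (R := ℤ) 243).mul monicAt_h3.ordGE)
    rw [zero_add] at a2
    exact (a1.sub (a2.mono (by norm_num))).add ((ordGE_ofNat 729).mono (by norm_num))
  have h3' := h1.add_ordGE h2 (by norm_num)
  have e : Dmu9 = h3 * g3 + (9 * g3 - 243 * h3 + 729) := by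
    rw [Dmu9]; ring
  rwa [e]

/-- the Hauptmodul of `X₀(9)` -/
def mu9 : LaurentSeries ℤ := Nmu9 * Ring.inverse Dmu9

theorem mu9_mul : mu9 * Dmu9 = Nmu9 := by
  rw [mu9, mul_assoc, Ring.inverse_mul_cancel _ monicAt_Dmu9.isUnit, mul_one]

theorem monicAt_mu9 : MonicAt (-1) mu9 := by
  have h := monicAt_Nmu9.mul (monicAt_inverse monicAt_Dmu9)
  rw [mu9]
  simpa using h

/-- `h₃ (μ₉² + 9 μ₉ + 27) = μ₉³` -/
theorem h3_mul_mu9 : h3 * (mu9 ^ 2 + 9 * mu9 + 27) = mu9 ^ 3 := by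
  apply mul_right_cancel₀ (pow_ne_zero 3 monicAt_Dmu9.ne_zero)
  have h1 := mu9_mul
  have h2 := psi9
  rw [Nmu9] at h1
  rw [Dmu9] at h1 ⊢
  linear_combination
    (h3 * ((h3 + 9) * g3 - 243 * h3 + 729) * (mu9 * ((h3 + 9) * g3 - 243 * h3 + 729) +
        (g3 * (h3 ^ 2 + 18 * h3 + 27) + 1458 * h3))
      + 9 * h3 * ((h3 + 9) * g3 - 243 * h3 + 729) ^ 2
      - ((mu9 * ((h3 + 9) * g3 - 243 * h3 + 729)) ^ 2
        + (mu9 * ((h3 + 9) * g3 - 243 * h3 + 729)) * (g3 * (h3 ^ 2 + 18 * h3 + 27) + 1458 * h3)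
        + (g3 * (h3 ^ 2 + 18 * h3 + 27) + 1458 * h3) ^ 2)) * h1
    + (243 * h3 ^ 3 + 5103 * h3 ^ 2 + 6561 * h3 - 19683) * h2

/-- `h₃(q³) = μ₉ (μ₉² + 9 μ₉ + 27)` -/
theorem g3_eq_mu9 : g3 = mu9 * (mu9 ^ 2 + 9 * mu9 + 27) := by
  apply mul_right_cancel₀ (pow_ne_zero 3 monicAt_Dmu9.ne_zero)
  have h1 := mu9_mul
  have h2 := psi9
  rw [Nmu9] at h1
  rw [Dmu9] at h1 ⊢
  linear_combination
    (h3 ^ 3 * g3 + 27 * h3 ^ 2 * g3 + 243 * h3 * g3 + 729 * g3 + 1458 * h3 ^ 2 + 39366) * h2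
    - ((mu9 * ((h3 + 9) * g3 - 243 * h3 + 729)) ^ 2
        + (mu9 * ((h3 + 9) * g3 - 243 * h3 + 729)) * (g3 * (h3 ^ 2 + 18 * h3 + 27) + 1458 * h3)
        + (g3 * (h3 ^ 2 + 18 * h3 + 27) + 1458 * h3) ^ 2
        + 9 * ((h3 + 9) * g3 - 243 * h3 + 729) * (mu9 * ((h3 + 9) * g3 - 243 * h3 + 729) +
          (g3 * (h3 ^ 2 + 18 * h3 + 27) + 1458 * h3))
        + 27 * ((h3 + 9) * g3 - 243 * h3 + 729) ^ 2) * h1

/-- `j μ₉⁹ (μ₉² + 9 μ₉ + 27) = (μ₉ + 9)³ (μ₉³ + 243 μ₉² + 2187 μ₉ + 6561)³` -/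
theorem JL_mul_mu9 : JL * (mu9 ^ 9 * (mu9 ^ 2 + 9 * mu9 + 27)) =
    (mu9 + 9) ^ 3 * (mu9 ^ 3 + 243 * mu9 ^ 2 + 2187 * mu9 + 6561) ^ 3 := by
  have h1 := JL_mul_h3
  have hQ := h3_mul_mu9
  have e3 : JL * (mu9 ^ 9 * (mu9 ^ 2 + 9 * mu9 + 27)) =
      JL * h3 ^ 3 * (mu9 ^ 2 + 9 * mu9 + 27) ^ 4 := by
    linear_combination (-JL * (mu9 ^ 2 + 9 * mu9 + 27) *
      ((h3 * (mu9 ^ 2 + 9 * mu9 + 27)) ^ 2 + (h3 * (mu9 ^ 2 + 9 * mu9 + 27)) * mu9 ^ 3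
        + mu9 ^ 6)) * hQ
  have e1 : (h3 + 27) * (mu9 ^ 2 + 9 * mu9 + 27) = (mu9 + 9) ^ 3 := by
    linear_combination hQ
  have e2 : (h3 + 243) * (mu9 ^ 2 + 9 * mu9 + 27) =
      mu9 ^ 3 + 243 * mu9 ^ 2 + 2187 * mu9 + 6561 := by
    linear_combination hQ
  rw [e3, h1, ← e1, ← e2]
  ring

end Fermat.Agent.S18lib.Haupt
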