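/-
S18lib / Haupt / Member  (lead)

Over a field `K` receiving a ring homomorphism from the ring of algebraic integers
(`K = Q̄` or `K = kRes A`), the images of the Hauptmoduln `h₂, h₃, μ₄, μ₉` in `K((q))` lie in
the modular function field `modularFunctionFieldFullC K N` of the appropriate levels.
-/
import Mathlib
import Fermat.Agent.S18lib.Haupt.Level9
import Fermat.Agent.S18lib.Gink.JK
import Fermat.Agent.S28lib.PhiP
import Fermat.Agent.S28lib.Theta
import Fermat.Agent.S28lib.Series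

set_option autoImplicit false
set_option linter.unusedSectionVars false

noncomputable section

namespace Fermat.Agent.S18lib.Haupt

open HahnSeries ModularCurve Fermat.Agent.S28lib IntermediateField

variable (K : Type*) [Field K]

/-- push an integral Laurent series to `K((q))` -/
def castK : LaurentSeries ℤ →+* LaurentSeries K := coeffMap (Int.castRingHom K)

theorem castK_JL : castK K JL = jqModC K := coeffMap_jqModC _

theorem castK_qExpand (p : ℕ) [NeZero p] (x : LaurentSeries ℤ) :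
    castK K (qExpand ℤ p x) = qExpand K p (castK K x) := coeffMap_qExpand _ p x

theorem castK_DL : castK K DL = DeltaQ K := by
  rw [DL_eq, castK, coeffMap_DeltaQ]

theorem monicAt_castK {n : ℤ} {x : LaurentSeries ℤ} (hx : MonicAt n x) : MonicAt n (castK K x) :=
  hx.coeffMap _

theorem monicAt_jqModC : MonicAt (-1) (jqModC K) :=
  ⟨jNum.map (Int.castRingHom K), by
    rw [← PowerSeries.coeff_zero_eq_constantCoeff_apply, PowerSeries.coeff_map,
      PowerSeries.coeff_zero_eq_constantCoeff_apply, constantCoeff_jNum, map_one], rfl⟩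

variable (N : ℕ) [NeZero N]

/-- a polynomial expression in `j(q)`, `j(q^d)` lies in the level-`N` field for `d ∣ N` -/
theorem eval₂_mem_fullC (P : Polynomial (Polynomial K)) {d : ℕ} [NeZero d] (hd : d ∣ N) :
    P.eval₂ (evalJ K (jqModC K)) (qExpand K d (jqModC K)) ∈ modularFunctionFieldFullC K N := by
  rw [Polynomial.eval₂_eq_sum_range]
  exact sum_mem fun i _ => mul_mem (Gink.evalJ_jqModC_mem_fullC K N _)
    (pow_mem (jqModCd_mem_full K N hd) _)

/-- the modular unit `Δ(q^p)/Δ(q)` lies in the level-`N` field for `p ∣ N` -/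
theorem nuQ_mem_fullC (ι : integralClosure ℤ ℂ →+* K) (p : ℕ) [Fact p.Prime] [NeZero p]
    (hp : (p : K) ≠ 0) (hpN : p ∣ N) : nuQ K p ∈ modularFunctionFieldFullC K N := by
  obtain ⟨A, B, hB, hAB⟩ := nuQ_rational p hp (modPolyData_of_ringHom p ι hp)
  rw [eq_div_of_mul_eq hB hAB]
  exact div_mem (eval₂_mem_fullC K N A hpN) (eval₂_mem_fullC K N B hpN)

/-- `h₂ ∈ K(X₀(N))` for `2 ∣ N` -/
theorem h2_mem_fullC (ι : integralClosure ℤ ℂ →+* K) (h2K : (2 : K) ≠ 0) (hN : 2 ∣ N) :
    castK K h2 ∈ modularFunctionFieldFullC K N := by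
  have h1 := congrArg (castK K) h2_mul_qExpand_DL
  rw [map_mul, castK_qExpand, castK_DL, ← nuQ_mul_DeltaQ, ← mul_assoc] at h1
  have h3 : castK K h2 * nuQ K 2 = 1 := mul_right_cancel₀ (DeltaQ_ne_zero K) (by rw [h1, one_mul])
  rw [eq_inv_of_mul_eq_one_left h3]
  exact inv_mem (nuQ_mem_fullC K N ι 2 (by exact_mod_cast h2K) hN)

/-- `h₃ ∈ K(X₀(N))` for `3 ∣ N` -/
theorem h3_mem_fullC (ι : integralClosure ℤ ℂ →+* K) (h3K : (3 : K) ≠ 0) (hN : 3 ∣ N) :
    castK K h3 ∈ modularFunctionFieldFullC K N := by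
  set h := castK K h3 with hh
  have h1 := congrArg (castK K) h3_sq_mul_qExpand_DL
  rw [map_mul, map_pow, castK_qExpand, castK_DL, ← nuQ_mul_DeltaQ, ← mul_assoc, ← hh] at h1
  have h3' : h ^ 2 * nuQ K 3 = 1 := mul_right_cancel₀ (DeltaQ_ne_zero K) (by rw [h1, one_mul])
  have hc : h ^ 2 ∈ modularFunctionFieldFullC K N := by
    rw [eq_inv_of_mul_eq_one_left h3']
    exact inv_mem (nuQ_mem_fullC K N ι 3 (by exact_mod_cast h3K) hN)
  have hJ := congrArg (castK K) JL_mul_h3
  simp only [map_mul, map_pow, map_add, map_ofNat, castK_JL, ← hh] at hJ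
  -- `h (j c - 756 c - 19131876) = c² + 196830 c + 387420489`, `c = h²`
  have hlin : h * (jqModC K * h ^ 2 - 756 * h ^ 2 - 19131876) =
      (h ^ 2) ^ 2 + 196830 * h ^ 2 + 387420489 := by
    linear_combination hJ
  have hmon : MonicAt (-3) (jqModC K * h ^ 2 - 756 * h ^ 2 - 19131876) := by
    have hm : MonicAt (-1) h := monicAt_castK K monicAt_h3
    have a1 : MonicAt (-3) (jqModC K * h ^ 2) := by
      have := (monicAt_jqModC K).mul (hm.pow 2)
      simpa using this
    have a2 : OrdGE (-2) (756 * h ^ 2) := by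
      have := (ordGE_ofNat (R := K) 756).mul (hm.pow 2).ordGE
      simpa using this
    exact (a1.sub_ordGE a2 (by norm_num)).sub_ordGE (ordGE_ofNat 19131876) (by norm_num)
  rw [eq_div_of_mul_eq hmon.ne_zero hlin]
  refine div_mem (add_mem (add_mem (pow_mem hc 2) (mul_mem ?_ hc)) ?_)
    (sub_mem (sub_mem (mul_mem (jqModC_mem_full K N) hc) (mul_mem ?_ hc)) ?_)
  all_goals exact ofNat_mem _ _

/-- `f ∈ K(X₀(M))`, `M p ∣ N` ⇒ `f(q^p) ∈ K(X₀(N))` -/
theorem qExpand_mem_fullC {M : ℕ} [NeZero M] (p : ℕ) [NeZero p] {x : LaurentSeries K}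
    (hx : x ∈ modularFunctionFieldFullC K M) (hN : M * p ∣ N) :
    qExpand K p x ∈ modularFunctionFieldFullC K N := by
  have : NeZero (M * p) := ⟨Nat.mul_ne_zero (NeZero.ne M) (NeZero.ne p)⟩
  apply full_degeneracyC_le K hN
  apply full_degeneracyC_map_le K M p
  exact (IntermediateField.mem_map _).mpr ⟨x, hx, rfl⟩

/-- `h₂(q²) ∈ K(X₀(N))` for `4 ∣ N` -/
theorem g2_mem_fullC (ι : integralClosure ℤ ℂ →+* K) (h2K : (2 : K) ≠ 0) (hN : 4 ∣ N) :
    castK K g2 ∈ modularFunctionFieldFullC K N := by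
  rw [g2, castK_qExpand]
  exact qExpand_mem_fullC K N 2 (h2_mem_fullC K 2 ι h2K dvd_rfl) hN

/-- `μ₄ ∈ K(X₀(N))` for `4 ∣ N` -/
theorem mu4_mem_fullC (ι : integralClosure ℤ ℂ →+* K) (h2K : (2 : K) ≠ 0) (hN : 4 ∣ N) :
    castK K mu4 ∈ modularFunctionFieldFullC K N := by
  have h1 := congrArg (castK K) mu4_mul
  simp only [map_mul, map_add, map_sub, map_ofNat] at h1
  have hmon : MonicAt (-1) (castK K h2 + 16) :=
    (monicAt_castK K monicAt_h2).add_ordGE (ordGE_ofNat 16) (by norm_num)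
  rw [eq_div_of_mul_eq hmon.ne_zero h1]
  have hh : castK K h2 ∈ modularFunctionFieldFullC K N :=
    h2_mem_fullC K N ι h2K (Dvd.dvd.trans (by norm_num) hN)
  exact div_mem (sub_mem (g2_mem_fullC K N ι h2K hN) (mul_mem (ofNat_mem _ _) hh))
    (add_mem hh (ofNat_mem _ _))

/-- `h₃(q³) ∈ K(X₀(N))` for `9 ∣ N` -/
theorem g3_mem_fullC (ι : integralClosure ℤ ℂ →+* K) (h3K : (3 : K) ≠ 0) (hN : 9 ∣ N) :
    castK K g3 ∈ modularFunctionFieldFullC K N := by
  rw [g3, castK_qExpand]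
  exact qExpand_mem_fullC K N 3 (h3_mem_fullC K 3 ι h3K dvd_rfl) hN

/-- `μ₉ ∈ K(X₀(N))` for `9 ∣ N` -/
theorem mu9_mem_fullC (ι : integralClosure ℤ ℂ →+* K) (h3K : (3 : K) ≠ 0) (hN : 9 ∣ N) :
    castK K mu9 ∈ modularFunctionFieldFullC K N := by
  have h1 := congrArg (castK K) mu9_mul
  rw [map_mul] at h1
  have hmon : MonicAt (-4) (castK K Dmu9) := monicAt_castK K monicAt_Dmu9
  rw [eq_div_of_mul_eq hmon.ne_zero h1]
  have hh : castK K h3 ∈ modularFunctionFieldFullC K N :=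
    h3_mem_fullC K N ι h3K (Dvd.dvd.trans (by norm_num) hN)
  have hg := g3_mem_fullC K N ι h3K hN
  refine div_mem ?_ ?_
  · rw [Nmu9]
    simp only [map_mul, map_add, map_pow, map_ofNat]
    exact add_mem (mul_mem hg (add_mem (add_mem (pow_mem hh 2) (mul_mem (ofNat_mem _ _) hh))
      (ofNat_mem _ _))) (mul_mem (ofNat_mem _ _) hh)
  · rw [Dmu9]
    simp only [map_mul, map_add, map_sub, map_ofNat]
    exact add_mem (sub_mem (mul_mem (add_mem hh (ofNat_mem _ _)) hg) (mul_mem (ofNat_mem _ _) hh))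
      (ofNat_mem _ _)

end Fermat.Agent.S18lib.Haupt
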