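/-
S18lib / Haupt / Integral  (lead)

The Hauptmoduln `h₂, μ₄` (resp. `h₃, μ₉`) as elements of the ring `V.IntRing N A` of `A`-integral
modular functions of level `N`, for `2 ∣ N` / `4 ∣ N` (resp. `3 ∣ N` / `9 ∣ N`) and `ℓ ∤ N`;
their characteristic-zero images and reductions are the `castK` images.
-/
import Mathlib
import Fermat.Agent.S18lib.Haupt.Member
import Fermat.Agent.S18lib.V.IntRing
import Fermat.Agent.S18lib.Gink.Bricks

set_option autoImplicit false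
set_option linter.unusedSectionVars false

noncomputable section

namespace Fermat.Agent.S18lib.Haupt

open HahnSeries ModularCurve Fermat.Agent.S28lib IntermediateField

/-- `Q̄(j(q^d) : d ∣ N) ⊆ modularFunctionFieldBar N` -/
theorem fullC_Qbar_le (N : ℕ) [NeZero N] :
    modularFunctionFieldFullC (AlgebraicClosure ℚ) N ≤ modularFunctionFieldBar N := by
  rw [modularFunctionFieldFullC, IntermediateField.adjoin_le_iff]
  rintro x ⟨d, hne, hd, rfl⟩
  have := hne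
  have h1 : qExpand (AlgebraicClosure ℚ) d (jqModC (AlgebraicClosure ℚ)) =
      coeffEmb (AlgebraicClosure ℚ) (qExpand ℚ d jq) := by
    rw [coeffEmb, coeffMap_qExpand, ← jqModC_rat, coeffMap_jqModC]
  rw [h1]
  exact coeffEmb_mem_laurentBaseChange _ (jqd_mem_full N hd)

variable (A : ValuationSubring (AlgebraicClosure ℚ))

/-- an integral Laurent series over `ℤ` as a Laurent series over `A` -/
def castA : LaurentSeries ℤ →+* LaurentSeries A := coeffMap (Int.castRingHom A)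

theorem toL_castA (x : LaurentSeries ℤ) : V.toL A (castA A x) = castK (AlgebraicClosure ℚ) x := by
  rw [V.toL, castA, castK, coeffMap_coeffMap]
  exact coeffMap_congr (RingHom.ext_int _ _) x

theorem toK_castA (x : LaurentSeries ℤ) : V.toK A (castA A x) = castK (kRes A) x := by
  rw [V.toK, castA, castK, coeffMap_coeffMap]
  exact coeffMap_congr (RingHom.ext_int _ _) x

variable {A} {ℓ : ℕ} [Fact ℓ.Prime] (N : ℕ) [NeZero N]

theorem two_ne_zero_kRes (hA : A.LiesOverPrime ℓ) (hℓN : ¬ ℓ ∣ N) (hN : 2 ∣ N) :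
    (2 : kRes A) ≠ 0 := by
  have := Gink.natCast_ne_zero_kRes hA (n := 2) (fun h => hℓN (h.trans hN))
  exact_mod_cast this

theorem three_ne_zero_kRes (hA : A.LiesOverPrime ℓ) (hℓN : ¬ ℓ ∣ N) (hN : 3 ∣ N) :
    (3 : kRes A) ≠ 0 := by
  have := Gink.natCast_ne_zero_kRes hA (n := 3) (fun h => hℓN (h.trans hN))
  exact_mod_cast this

/-- `h₂ ∈ IntRing N A` for `2 ∣ N`, `ℓ ∤ N` -/
theorem h2_mem_IntRing (hA : A.LiesOverPrime ℓ) (hℓN : ¬ ℓ ∣ N) (hN : 2 ∣ N) :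
    castA A h2 ∈ V.IntRing N A := by
  refine V.mem_IntRing.mpr ⟨?_, ?_⟩
  · rw [toL_castA]
    exact fullC_Qbar_le N (h2_mem_fullC _ N (Gink.intToQbar : _ →+* _) two_ne_zero hN)
  · rw [toK_castA]
    exact h2_mem_fullC _ N (Gink.iotaA A) (two_ne_zero_kRes N hA hℓN hN) hN

/-- `μ₄ ∈ IntRing N A` for `4 ∣ N`, `ℓ ∤ N` -/
theorem mu4_mem_IntRing (hA : A.LiesOverPrime ℓ) (hℓN : ¬ ℓ ∣ N) (hN : 4 ∣ N) :
    castA A mu4 ∈ V.IntRing N A := by
  have h2N : 2 ∣ N := Dvd.dvd.trans (by norm_num) hN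
  refine V.mem_IntRing.mpr ⟨?_, ?_⟩
  · rw [toL_castA]
    exact fullC_Qbar_le N (mu4_mem_fullC _ N (Gink.intToQbar : _ →+* _) two_ne_zero hN)
  · rw [toK_castA]
    exact mu4_mem_fullC _ N (Gink.iotaA A) (two_ne_zero_kRes N hA hℓN h2N) hN

/-- `h₃ ∈ IntRing N A` for `3 ∣ N`, `ℓ ∤ N` -/
theorem h3_mem_IntRing (hA : A.LiesOverPrime ℓ) (hℓN : ¬ ℓ ∣ N) (hN : 3 ∣ N) :
    castA A h3 ∈ V.IntRing N A := by
  refine V.mem_IntRing.mpr ⟨?_, ?_⟩
  · rw [toL_castA]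
    exact fullC_Qbar_le N (h3_mem_fullC _ N (Gink.intToQbar : _ →+* _) three_ne_zero hN)
  · rw [toK_castA]
    exact h3_mem_fullC _ N (Gink.iotaA A) (three_ne_zero_kRes N hA hℓN hN) hN

/-- `μ₉ ∈ IntRing N A` for `9 ∣ N`, `ℓ ∤ N` -/
theorem mu9_mem_IntRing (hA : A.LiesOverPrime ℓ) (hℓN : ¬ ℓ ∣ N) (hN : 9 ∣ N) :
    castA A mu9 ∈ V.IntRing N A := by
  have h3N : 3 ∣ N := Dvd.dvd.trans (by norm_num) hN
  refine V.mem_IntRing.mpr ⟨?_, ?_⟩
  · rw [toL_castA]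
    exact fullC_Qbar_le N (mu9_mem_fullC _ N (Gink.intToQbar : _ →+* _) three_ne_zero hN)
  · rw [toK_castA]
    exact mu9_mem_fullC _ N (Gink.iotaA A) (three_ne_zero_kRes N hA hℓN h3N) hN

end Fermat.Agent.S18lib.Haupt
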