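/-
S18lib / Haupt / Residue  (lead)   — package (M-h)

The Hauptmoduln as concrete elements of the two function fields `FBar N`, `FRes A N`
(`ℓ ∤ N`, `2 ∣ N` / `4 ∣ N`, resp. `3 ∣ N` / `9 ∣ N`), their reductions under helper7's
unconditional Gauss datum, and their relations to `j`, both in characteristic-free form and in
the reduced forms modulo `3` (level `4`) and modulo `2` (level `9`).
-/
import Mathlib
import Fermat.Agent.S18lib.Haupt.Integral
import Fermat.Agent.S18lib.Haupt.Transc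
import Fermat.Agent.S18lib.V.GaussU.Frame
import Fermat.Agent.S18lib.Gin0.Main

set_option autoImplicit false
set_option linter.unusedSectionVars false

noncomputable section

namespace Fermat.Agent.S18lib.Haupt

open HahnSeries ModularCurve IntermediateField

variable (N : ℕ) [NeZero N] {A : ValuationSubring (AlgebraicClosure ℚ)} {ℓ : ℕ} [Fact ℓ.Prime]

local notation "Qb" => AlgebraicClosure ℚ
local notation "kA" => IsLocalRing.ResidueField A

/-! ### the elements -/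

section Elements

variable (hA : A.LiesOverPrime ℓ) (hℓN : ¬ ℓ ∣ N)

/-- `h₂` as an integral modular function of level `N`, `2 ∣ N` -/
def h2I (hN : 2 ∣ N) : V.IntRing N A := ⟨castA A h2, h2_mem_IntRing N hA hℓN hN⟩

/-- `μ₄` as an integral modular function of level `N`, `4 ∣ N` -/
def mu4I (hN : 4 ∣ N) : V.IntRing N A := ⟨castA A mu4, mu4_mem_IntRing N hA hℓN hN⟩

/-- `h₃` as an integral modular function of level `N`, `3 ∣ N` -/
def h3I (hN : 3 ∣ N) : V.IntRing N A := ⟨castA A h3, h3_mem_IntRing N hA hℓN hN⟩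

/-- `μ₉` as an integral modular function of level `N`, `9 ∣ N` -/
def mu9I (hN : 9 ∣ N) : V.IntRing N A := ⟨castA A mu9, mu9_mem_IntRing N hA hℓN hN⟩

/-- `h₂ ∈ FBar N` -/
def h2L (hN : 2 ∣ N) : FBar N := V.elemL (h2I N hA hℓN hN)
/-- `h̄₂ ∈ FRes A N` -/
def h2K (hN : 2 ∣ N) : FRes A N := V.elemK (h2I N hA hℓN hN)
/-- `μ₄ ∈ FBar N` -/
def mu4L (hN : 4 ∣ N) : FBar N := V.elemL (mu4I N hA hℓN hN)
/-- `μ̄₄ ∈ FRes A N` -/
def mu4K (hN : 4 ∣ N) : FRes A N := V.elemK (mu4I N hA hℓN hN)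
/-- `h₃ ∈ FBar N` -/
def h3L (hN : 3 ∣ N) : FBar N := V.elemL (h3I N hA hℓN hN)
/-- `h̄₃ ∈ FRes A N` -/
def h3K (hN : 3 ∣ N) : FRes A N := V.elemK (h3I N hA hℓN hN)
/-- `μ₉ ∈ FBar N` -/
def mu9L (hN : 9 ∣ N) : FBar N := V.elemL (mu9I N hA hℓN hN)
/-- `μ̄₉ ∈ FRes A N` -/
def mu9K (hN : 9 ∣ N) : FRes A N := V.elemK (mu9I N hA hℓN hN)

theorem coe_h2L (hN : 2 ∣ N) : ((h2L N hA hℓN hN : FBar N) : LaurentSeries Qb) = castK Qb h2 :=
  toL_castA A h2
theorem coe_h2K (hN : 2 ∣ N) : ((h2K N hA hℓN hN : FRes A N) : LaurentSeries kA) = castK kA h2 :=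
  toK_castA A h2
theorem coe_mu4L (hN : 4 ∣ N) : ((mu4L N hA hℓN hN : FBar N) : LaurentSeries Qb) = castK Qb mu4 :=
  toL_castA A mu4
theorem coe_mu4K (hN : 4 ∣ N) :
    ((mu4K N hA hℓN hN : FRes A N) : LaurentSeries kA) = castK kA mu4 :=
  toK_castA A mu4
theorem coe_h3L (hN : 3 ∣ N) : ((h3L N hA hℓN hN : FBar N) : LaurentSeries Qb) = castK Qb h3 :=
  toL_castA A h3
theorem coe_h3K (hN : 3 ∣ N) : ((h3K N hA hℓN hN : FRes A N) : LaurentSeries kA) = castK kA h3 :=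
  toK_castA A h3
theorem coe_mu9L (hN : 9 ∣ N) : ((mu9L N hA hℓN hN : FBar N) : LaurentSeries Qb) = castK Qb mu9 :=
  toL_castA A mu9
theorem coe_mu9K (hN : 9 ∣ N) :
    ((mu9K N hA hℓN hN : FRes A N) : LaurentSeries kA) = castK kA mu9 :=
  toK_castA A mu9

/-! ### reduction -/

theorem redF_h2L (hN : 2 ∣ N) :
    (V.gaussDatum N A hℓN hA).redF (h2L N hA hℓN hN) = h2K N hA hℓN hN :=
  V.gaussDatum_redF_elemL N A hℓN hA _
theorem redF_mu4L (hN : 4 ∣ N) :
    (V.gaussDatum N A hℓN hA).redF (mu4L N hA hℓN hN) = mu4K N hA hℓN hN :=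
  V.gaussDatum_redF_elemL N A hℓN hA _
theorem redF_h3L (hN : 3 ∣ N) :
    (V.gaussDatum N A hℓN hA).redF (h3L N hA hℓN hN) = h3K N hA hℓN hN :=
  V.gaussDatum_redF_elemL N A hℓN hA _
theorem redF_mu9L (hN : 9 ∣ N) :
    (V.gaussDatum N A hℓN hA).redF (mu9L N hA hℓN hN) = mu9K N hA hℓN hN :=
  V.gaussDatum_redF_elemL N A hℓN hA _

theorem h2L_mem_O (hN : 2 ∣ N) : h2L N hA hℓN hN ∈ (V.gaussDatum N A hℓN hA).O :=
  V.elemL_mem_gaussDatum_O N A hℓN hA _
theorem mu4L_mem_O (hN : 4 ∣ N) : mu4L N hA hℓN hN ∈ (V.gaussDatum N A hℓN hA).O :=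
  V.elemL_mem_gaussDatum_O N A hℓN hA _
theorem h3L_mem_O (hN : 3 ∣ N) : h3L N hA hℓN hN ∈ (V.gaussDatum N A hℓN hA).O :=
  V.elemL_mem_gaussDatum_O N A hℓN hA _
theorem mu9L_mem_O (hN : 9 ∣ N) : mu9L N hA hℓN hN ∈ (V.gaussDatum N A hℓN hA).O :=
  V.elemL_mem_gaussDatum_O N A hℓN hA _

end Elements

/-! ### transfer of identities from `ℤ((q))` to the two fields -/

theorem coe_jK : ((Gink.jK A N : FRes A N) : LaurentSeries kA) = jqModC kA := rfl

theorem jRes_eq_jK : V.jRes N A = Gink.jK A N := Subtype.ext (V.coe_jRes N A)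

theorem algebraMap_FRes_injective :
    Function.Injective (algebraMap (FRes A N) (LaurentSeries kA)) :=
  (algebraMap (FRes A N) (LaurentSeries kA)).injective

theorem algebraMap_FBar_injective :
    Function.Injective (algebraMap (FBar N) (LaurentSeries Qb)) :=
  (algebraMap (FBar N) (LaurentSeries Qb)).injective

section Level4

variable (hA : A.LiesOverPrime ℓ) (hℓN : ¬ ℓ ∣ N)

/-- `j̄ h̄₂² = (h̄₂ + 256)³` in `FRes A N` -/
theorem jK_mul_h2K (hN : 2 ∣ N) :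
    Gink.jK A N * h2K N hA hℓN hN ^ 2 = (h2K N hA hℓN hN + 256) ^ 3 := by
  apply algebraMap_FRes_injective N
  have h := congrArg (castK kA) JL_mul_h2
  simp only [map_mul, map_pow, map_add, map_ofNat, castK_JL] at h
  simp only [map_mul, map_pow, map_add, map_ofNat, IntermediateField.algebraMap_apply, coe_h2K,
    coe_jK]
  exact h

/-- `j h₂² = (h₂ + 256)³` in `FBar N` -/
theorem jF_mul_h2L (hN : 2 ∣ N) :
    Gin0.jF N * h2L N hA hℓN hN ^ 2 = (h2L N hA hℓN hN + 256) ^ 3 := by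
  apply algebraMap_FBar_injective N
  have h := congrArg (castK Qb) JL_mul_h2
  simp only [map_mul, map_pow, map_add, map_ofNat, castK_JL] at h
  simp only [map_mul, map_pow, map_add, map_ofNat, IntermediateField.algebraMap_apply, coe_h2L,
    Gin0.coe_jF]
  exact h

/-- `h̄₂ (μ̄₄ + 16) = μ̄₄²` in `FRes A N` -/
theorem h2K_mul_mu4K (hN : 4 ∣ N) :
    h2K N hA hℓN (Dvd.dvd.trans (by norm_num) hN) * (mu4K N hA hℓN hN + 16) =
      mu4K N hA hℓN hN ^ 2 := by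
  apply algebraMap_FRes_injective N
  have h := congrArg (castK kA) h2_mul_mu4
  simp only [map_mul, map_pow, map_add, map_ofNat] at h
  simp only [map_mul, map_pow, map_add, map_ofNat, IntermediateField.algebraMap_apply, coe_h2K,
    coe_mu4K]
  exact h

/-- `h₂ (μ₄ + 16) = μ₄²` in `FBar N` -/
theorem h2L_mul_mu4L (hN : 4 ∣ N) :
    h2L N hA hℓN (Dvd.dvd.trans (by norm_num) hN) * (mu4L N hA hℓN hN + 16) =
      mu4L N hA hℓN hN ^ 2 := by
  apply algebraMap_FBar_injective N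
  have h := congrArg (castK Qb) h2_mul_mu4
  simp only [map_mul, map_pow, map_add, map_ofNat] at h
  simp only [map_mul, map_pow, map_add, map_ofNat, IntermediateField.algebraMap_apply, coe_h2L,
    coe_mu4L]
  exact h

/-- `j̄ μ̄₄⁴ (μ̄₄ + 16) = (μ̄₄² + 256 μ̄₄ + 4096)³` in `FRes A N` -/
theorem jK_mul_mu4K (hN : 4 ∣ N) :
    Gink.jK A N * (mu4K N hA hℓN hN ^ 4 * (mu4K N hA hℓN hN + 16)) =
      (mu4K N hA hℓN hN ^ 2 + 256 * mu4K N hA hℓN hN + 4096) ^ 3 := by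
  apply algebraMap_FRes_injective N
  have h := congrArg (castK kA) JL_mul_mu4
  simp only [map_mul, map_pow, map_add, map_ofNat, castK_JL] at h
  simp only [map_mul, map_pow, map_add, map_ofNat, IntermediateField.algebraMap_apply, coe_mu4K,
    coe_jK]
  exact h

/-- `j μ₄⁴ (μ₄ + 16) = (μ₄² + 256 μ₄ + 4096)³` in `FBar N` -/
theorem jF_mul_mu4L (hN : 4 ∣ N) :
    Gin0.jF N * (mu4L N hA hℓN hN ^ 4 * (mu4L N hA hℓN hN + 16)) =
      (mu4L N hA hℓN hN ^ 2 + 256 * mu4L N hA hℓN hN + 4096) ^ 3 := by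
  apply algebraMap_FBar_injective N
  have h := congrArg (castK Qb) JL_mul_mu4
  simp only [map_mul, map_pow, map_add, map_ofNat, castK_JL] at h
  simp only [map_mul, map_pow, map_add, map_ofNat, IntermediateField.algebraMap_apply, coe_mu4L,
    Gin0.coe_jF]
  exact h

/-! reduced forms modulo `3` -/

theorem three_eq_zero_FRes (hA : A.LiesOverPrime ℓ) (hℓ : ℓ = 3) : (3 : FRes A N) = 0 := by
  have := Gink.charP_kRes A hA
  have h : ((ℓ : ℕ) : kA) = 0 := CharP.cast_eq_zero kA ℓ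
  rw [hℓ] at h
  have h2 := congrArg (algebraMap kA (FRes A N)) h
  rw [map_zero, map_natCast] at h2
  exact_mod_cast h2

/-- `j̄ h̄₂² = (h̄₂ + 1)³` in characteristic `3` -/
theorem jK_mul_h2K_three (hℓ : ℓ = 3) (hN : 2 ∣ N) :
    Gink.jK A N * h2K N hA hℓN hN ^ 2 = (h2K N hA hℓN hN + 1) ^ 3 := by
  have h3 := three_eq_zero_FRes N hA hℓ
  have e : (256 : FRes A N) = 1 := by linear_combination 85 * h3
  have h := jK_mul_h2K N hA hℓN hN
  rwa [e] at h

/-- `(h̄₂ + 1)(μ̄₄ + 1) = (μ̄₄ - 1)²` in characteristic `3` -/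
theorem h2K_mul_mu4K_three (hℓ : ℓ = 3) (hN : 4 ∣ N) :
    (h2K N hA hℓN (Dvd.dvd.trans (by norm_num) hN) + 1) * (mu4K N hA hℓN hN + 1) =
      (mu4K N hA hℓN hN - 1) ^ 2 := by
  have h3 := three_eq_zero_FRes N hA hℓ
  have h := h2K_mul_mu4K N hA hℓN hN
  linear_combination h + (mu4K N hA hℓN hN -
    5 * h2K N hA hℓN (Dvd.dvd.trans (by norm_num) hN)) * h3

/-- `j̄ μ̄₄⁴ (μ̄₄ + 1) = (μ̄₄ - 1)⁶` in characteristic `3` -/
theorem jK_mul_mu4K_three (hℓ : ℓ = 3) (hN : 4 ∣ N) :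
    Gink.jK A N * (mu4K N hA hℓN hN ^ 4 * (mu4K N hA hℓN hN + 1)) =
      (mu4K N hA hℓN hN - 1) ^ 6 := by
  have h3 := three_eq_zero_FRes N hA hℓ
  have h := jK_mul_mu4K N hA hℓN hN
  set μ := mu4K N hA hℓN hN
  linear_combination h + (-5 * Gink.jK A N * μ ^ 4 + (86 * μ + 1365) *
    ((μ ^ 2 + 256 * μ + 4096) ^ 2 + (μ ^ 2 + 256 * μ + 4096) * (μ - 1) ^ 2 + ((μ - 1) ^ 2) ^ 2))
    * h3

end Level4

section Level9

variable (hA : A.LiesOverPrime ℓ) (hℓN : ¬ ℓ ∣ N)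

/-- `j̄ h̄₃³ = (h̄₃ + 27)(h̄₃ + 243)³` in `FRes A N` -/
theorem jK_mul_h3K (hN : 3 ∣ N) :
    Gink.jK A N * h3K N hA hℓN hN ^ 3 = (h3K N hA hℓN hN + 27) * (h3K N hA hℓN hN + 243) ^ 3 := by
  apply algebraMap_FRes_injective N
  have h := congrArg (castK kA) JL_mul_h3
  simp only [map_mul, map_pow, map_add, map_ofNat, castK_JL] at h
  simp only [map_mul, map_pow, map_add, map_ofNat, IntermediateField.algebraMap_apply, coe_h3K,
    coe_jK]
  exact h

/-- `j h₃³ = (h₃ + 27)(h₃ + 243)³` in `FBar N` -/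
theorem jF_mul_h3L (hN : 3 ∣ N) :
    Gin0.jF N * h3L N hA hℓN hN ^ 3 = (h3L N hA hℓN hN + 27) * (h3L N hA hℓN hN + 243) ^ 3 := by
  apply algebraMap_FBar_injective N
  have h := congrArg (castK Qb) JL_mul_h3
  simp only [map_mul, map_pow, map_add, map_ofNat, castK_JL] at h
  simp only [map_mul, map_pow, map_add, map_ofNat, IntermediateField.algebraMap_apply, coe_h3L,
    Gin0.coe_jF]
  exact h

/-- `h̄₃ (μ̄₉² + 9 μ̄₉ + 27) = μ̄₉³` in `FRes A N` -/
theorem h3K_mul_mu9K (hN : 9 ∣ N) :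
    h3K N hA hℓN (Dvd.dvd.trans (by norm_num) hN) *
        (mu9K N hA hℓN hN ^ 2 + 9 * mu9K N hA hℓN hN + 27) = mu9K N hA hℓN hN ^ 3 := by
  apply algebraMap_FRes_injective N
  have h := congrArg (castK kA) h3_mul_mu9
  simp only [map_mul, map_pow, map_add, map_ofNat] at h
  simp only [map_mul, map_pow, map_add, map_ofNat, IntermediateField.algebraMap_apply, coe_h3K,
    coe_mu9K]
  exact h

/-- `h₃ (μ₉² + 9 μ₉ + 27) = μ₉³` in `FBar N` -/
theorem h3L_mul_mu9L (hN : 9 ∣ N) :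
    h3L N hA hℓN (Dvd.dvd.trans (by norm_num) hN) *
        (mu9L N hA hℓN hN ^ 2 + 9 * mu9L N hA hℓN hN + 27) = mu9L N hA hℓN hN ^ 3 := by
  apply algebraMap_FBar_injective N
  have h := congrArg (castK Qb) h3_mul_mu9
  simp only [map_mul, map_pow, map_add, map_ofNat] at h
  simp only [map_mul, map_pow, map_add, map_ofNat, IntermediateField.algebraMap_apply, coe_h3L,
    coe_mu9L]
  exact h

/-- `j̄ μ̄₉⁹ (μ̄₉² + 9 μ̄₉ + 27) = (μ̄₉ + 9)³ (μ̄₉³ + 243 μ̄₉² + 2187 μ̄₉ + 6561)³` in `FRes A N` -/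
theorem jK_mul_mu9K (hN : 9 ∣ N) :
    Gink.jK A N * (mu9K N hA hℓN hN ^ 9 * (mu9K N hA hℓN hN ^ 2 + 9 * mu9K N hA hℓN hN + 27)) =
      (mu9K N hA hℓN hN + 9) ^ 3 * (mu9K N hA hℓN hN ^ 3 + 243 * mu9K N hA hℓN hN ^ 2
        + 2187 * mu9K N hA hℓN hN + 6561) ^ 3 := by
  apply algebraMap_FRes_injective N
  have h := congrArg (castK kA) JL_mul_mu9
  simp only [map_mul, map_pow, map_add, map_ofNat, castK_JL] at h
  simp only [map_mul, map_pow, map_add, map_ofNat, IntermediateField.algebraMap_apply, coe_mu9K,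
    coe_jK]
  exact h

/-- `j μ₉⁹ (μ₉² + 9 μ₉ + 27) = (μ₉ + 9)³ (μ₉³ + 243 μ₉² + 2187 μ₉ + 6561)³` in `FBar N` -/
theorem jF_mul_mu9L (hN : 9 ∣ N) :
    Gin0.jF N * (mu9L N hA hℓN hN ^ 9 * (mu9L N hA hℓN hN ^ 2 + 9 * mu9L N hA hℓN hN + 27)) =
      (mu9L N hA hℓN hN + 9) ^ 3 * (mu9L N hA hℓN hN ^ 3 + 243 * mu9L N hA hℓN hN ^ 2
        + 2187 * mu9L N hA hℓN hN + 6561) ^ 3 := by
  apply algebraMap_FBar_injective N
  have h := congrArg (castK Qb) JL_mul_mu9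
  simp only [map_mul, map_pow, map_add, map_ofNat, castK_JL] at h
  simp only [map_mul, map_pow, map_add, map_ofNat, IntermediateField.algebraMap_apply, coe_mu9L,
    Gin0.coe_jF]
  exact h

/-! reduced forms modulo `2` -/

theorem two_eq_zero_FRes (hA : A.LiesOverPrime ℓ) (hℓ : ℓ = 2) : (2 : FRes A N) = 0 := by
  have := Gink.charP_kRes A hA
  have h : ((ℓ : ℕ) : kA) = 0 := CharP.cast_eq_zero kA ℓ
  rw [hℓ] at h
  have h2 := congrArg (algebraMap kA (FRes A N)) h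
  rw [map_zero, map_natCast] at h2
  exact_mod_cast h2

/-- `j̄ h̄₃³ = (h̄₃ + 1)⁴` in characteristic `2` -/
theorem jK_mul_h3K_two (hℓ : ℓ = 2) (hN : 3 ∣ N) :
    Gink.jK A N * h3K N hA hℓN hN ^ 3 = (h3K N hA hℓN hN + 1) ^ 4 := by
  have h2 := two_eq_zero_FRes N hA hℓ
  have e1 : (27 : FRes A N) = 1 := by linear_combination 13 * h2
  have e2 : (243 : FRes A N) = 1 := by linear_combination 121 * h2
  have h := jK_mul_h3K N hA hℓN hN
  rw [e1, e2] at h
  linear_combination h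

/-- `(h̄₃ + 1)(μ̄₉² + μ̄₉ + 1) = (μ̄₉ + 1)³` in characteristic `2` -/
theorem h3K_mul_mu9K_two (hℓ : ℓ = 2) (hN : 9 ∣ N) :
    (h3K N hA hℓN (Dvd.dvd.trans (by norm_num) hN) + 1) *
        (mu9K N hA hℓN hN ^ 2 + mu9K N hA hℓN hN + 1) = (mu9K N hA hℓN hN + 1) ^ 3 := by
  have h2 := two_eq_zero_FRes N hA hℓ
  have h := h3K_mul_mu9K N hA hℓN hN
  set μ := mu9K N hA hℓN hN
  set hh := h3K N hA hℓN (Dvd.dvd.trans (by norm_num) hN)
  linear_combination h + (-hh * (4 * μ + 13) - μ ^ 2 - μ) * h2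

/-- `j̄ μ̄₉⁹ (μ̄₉² + μ̄₉ + 1) = (μ̄₉ + 1)¹²` in characteristic `2` -/
theorem jK_mul_mu9K_two (hℓ : ℓ = 2) (hN : 9 ∣ N) :
    Gink.jK A N * (mu9K N hA hℓN hN ^ 9 * (mu9K N hA hℓN hN ^ 2 + mu9K N hA hℓN hN + 1)) =
      (mu9K N hA hℓN hN + 1) ^ 12 := by
  have h2 := two_eq_zero_FRes N hA hℓ
  have e9 : (9 : FRes A N) = 1 := by linear_combination 4 * h2
  have e27 : (27 : FRes A N) = 1 := by linear_combination 13 * h2
  have e243 : (243 : FRes A N) = 1 := by linear_combination 121 * h2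
  have e2187 : (2187 : FRes A N) = 1 := by linear_combination 1093 * h2
  have e6561 : (6561 : FRes A N) = 1 := by linear_combination 3280 * h2
  have h := jK_mul_mu9K N hA hℓN hN
  rw [e9, e27, e243, e2187, e6561] at h
  set μ := mu9K N hA hℓN hN
  linear_combination h - ((μ + 1) ^ 3 * (μ ^ 2 + μ) *
    (((μ + 1) ^ 3) ^ 2 + (μ + 1) ^ 3 * (μ ^ 3 + μ ^ 2 + μ + 1) + (μ ^ 3 + μ ^ 2 + μ + 1) ^ 2)) * h2

end Level9

/-! ### integrality over `k[j]` -/

section Integral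

open Polynomial

/-- `(T + 256)³ - X T²`: the monic equation of `h₂` over `R[j]` -/
def polyH2 (R : Type*) [CommRing R] : R[X][X] := (X + 256) ^ 3 - Polynomial.C (X : R[X]) * X ^ 2

/-- `(T² + 256 T + 4096)³ - X T⁴ (T + 16)`: the monic equation of `μ₄` over `R[j]` -/
def polyMu4 (R : Type*) [CommRing R] : R[X][X] :=
  (X ^ 2 + 256 * X + 4096) ^ 3 - Polynomial.C (X : R[X]) * (X ^ 4 * (X + 16))

/-- `(T + 27)(T + 243)³ - X T³`: the monic equation of `h₃` over `R[j]` -/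
def polyH3 (R : Type*) [CommRing R] : R[X][X] := (X + 27) * (X + 243) ^ 3 - Polynomial.C (X : R[X]) * X ^ 3

/-- the monic equation of `μ₉` over `R[j]` -/
def polyMu9 (R : Type*) [CommRing R] : R[X][X] :=
  (X + 9) ^ 3 * (X ^ 3 + 243 * X ^ 2 + 2187 * X + 6561) ^ 3
    - Polynomial.C (X : R[X]) * (X ^ 9 * (X ^ 2 + 9 * X + 27))

theorem polyH2_monic (R : Type*) [CommRing R] [Nontrivial R] : (polyH2 R).Monic := by
  unfold polyH2; monicity!
theorem polyMu4_monic (R : Type*) [CommRing R] [Nontrivial R] : (polyMu4 R).Monic := by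
  unfold polyMu4; monicity!
theorem polyH3_monic (R : Type*) [CommRing R] [Nontrivial R] : (polyH3 R).Monic := by
  unfold polyH3; monicity!
theorem polyMu9_monic (R : Type*) [CommRing R] [Nontrivial R] : (polyMu9 R).Monic := by
  unfold polyMu9; monicity!

theorem polyH2_natDegree (R : Type*) [CommRing R] [Nontrivial R] : (polyH2 R).natDegree = 3 := by
  unfold polyH2; compute_degree!
theorem polyMu4_natDegree (R : Type*) [CommRing R] [Nontrivial R] :
    (polyMu4 R).natDegree = 6 := by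
  unfold polyMu4; compute_degree!
theorem polyH3_natDegree (R : Type*) [CommRing R] [Nontrivial R] : (polyH3 R).natDegree = 4 := by
  unfold polyH3; compute_degree!
theorem polyMu9_natDegree (R : Type*) [CommRing R] [Nontrivial R] :
    (polyMu9 R).natDegree = 12 := by
  unfold polyMu9; compute_degree!

section Eval

variable {K F : Type*} [Field K] [Field F] [Algebra K F] (j x : F)

theorem eval₂_polyH2 :
    (polyH2 K).eval₂ (aeval j).toRingHom x = (x + 256) ^ 3 - j * x ^ 2 := by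
  simp [polyH2, eval₂_sub, eval₂_mul, eval₂_pow, eval₂_add]

theorem eval₂_polyMu4 : (polyMu4 K).eval₂ (aeval j).toRingHom x =
    (x ^ 2 + 256 * x + 4096) ^ 3 - j * (x ^ 4 * (x + 16)) := by
  simp [polyMu4, eval₂_sub, eval₂_mul, eval₂_pow, eval₂_add]

theorem eval₂_polyH3 :
    (polyH3 K).eval₂ (aeval j).toRingHom x = (x + 27) * (x + 243) ^ 3 - j * x ^ 3 := by
  simp [polyH3, eval₂_sub, eval₂_mul, eval₂_pow, eval₂_add]

theorem eval₂_polyMu9 : (polyMu9 K).eval₂ (aeval j).toRingHom x =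
    (x + 9) ^ 3 * (x ^ 3 + 243 * x ^ 2 + 2187 * x + 6561) ^ 3
      - j * (x ^ 9 * (x ^ 2 + 9 * x + 27)) := by
  simp [polyMu9, eval₂_sub, eval₂_mul, eval₂_pow, eval₂_add]

/-- a monic relation over `K[j]` gives integrality over the subalgebra `K[j] ⊆ F` -/
theorem isIntegral_adjoin_of_eval₂ (P : K[X][X]) (hP : P.Monic)
    (h : P.eval₂ (aeval j).toRingHom x = 0) : IsIntegral (Algebra.adjoin K {j}) x := by
  let j' : Algebra.adjoin K {j} := ⟨j, Algebra.subset_adjoin (Set.mem_singleton j)⟩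
  refine ⟨P.map (aeval (R := K) j').toRingHom, hP.map _, ?_⟩
  rw [eval₂_map]
  have hcomp : (algebraMap (Algebra.adjoin K {j}) F).comp (aeval (R := K) j').toRingHom =
      (aeval (R := K) j).toRingHom := by
    apply Polynomial.ringHom_ext
    · intro a
      simp [j']
    · simp [j']
  rw [hcomp]
  exact h

end Eval

variable (hA : A.LiesOverPrime ℓ) (hℓN : ¬ ℓ ∣ N)

theorem eval₂_polyH2_h2K (hN : 2 ∣ N) :
    (polyH2 kA).eval₂ (aeval (Gink.jK A N)).toRingHom (h2K N hA hℓN hN) = 0 := by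
  rw [eval₂_polyH2, jK_mul_h2K, sub_self]

theorem eval₂_polyH2_h2L (hN : 2 ∣ N) :
    (polyH2 Qb).eval₂ (aeval (Gin0.jF N)).toRingHom (h2L N hA hℓN hN) = 0 := by
  rw [eval₂_polyH2, jF_mul_h2L, sub_self]

theorem eval₂_polyMu4_mu4K (hN : 4 ∣ N) :
    (polyMu4 kA).eval₂ (aeval (Gink.jK A N)).toRingHom (mu4K N hA hℓN hN) = 0 := by
  rw [eval₂_polyMu4, jK_mul_mu4K, sub_self]

theorem eval₂_polyMu4_mu4L (hN : 4 ∣ N) :
    (polyMu4 Qb).eval₂ (aeval (Gin0.jF N)).toRingHom (mu4L N hA hℓN hN) = 0 := by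
  rw [eval₂_polyMu4, jF_mul_mu4L, sub_self]

theorem eval₂_polyH3_h3K (hN : 3 ∣ N) :
    (polyH3 kA).eval₂ (aeval (Gink.jK A N)).toRingHom (h3K N hA hℓN hN) = 0 := by
  rw [eval₂_polyH3, jK_mul_h3K, sub_self]

theorem eval₂_polyH3_h3L (hN : 3 ∣ N) :
    (polyH3 Qb).eval₂ (aeval (Gin0.jF N)).toRingHom (h3L N hA hℓN hN) = 0 := by
  rw [eval₂_polyH3, jF_mul_h3L, sub_self]

theorem eval₂_polyMu9_mu9K (hN : 9 ∣ N) :
    (polyMu9 kA).eval₂ (aeval (Gink.jK A N)).toRingHom (mu9K N hA hℓN hN) = 0 := by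
  rw [eval₂_polyMu9, jK_mul_mu9K, sub_self]

theorem eval₂_polyMu9_mu9L (hN : 9 ∣ N) :
    (polyMu9 Qb).eval₂ (aeval (Gin0.jF N)).toRingHom (mu9L N hA hℓN hN) = 0 := by
  rw [eval₂_polyMu9, jF_mul_mu9L, sub_self]

/-- `h̄₂` is integral over `k[j̄]` -/
theorem isIntegral_h2K (hN : 2 ∣ N) :
    IsIntegral (Algebra.adjoin kA {Gink.jK A N}) (h2K N hA hℓN hN) :=
  isIntegral_adjoin_of_eval₂ _ _ _ (polyH2_monic kA) (eval₂_polyH2_h2K N hA hℓN hN)

/-- `μ̄₄` is integral over `k[j̄]` -/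
theorem isIntegral_mu4K (hN : 4 ∣ N) :
    IsIntegral (Algebra.adjoin kA {Gink.jK A N}) (mu4K N hA hℓN hN) :=
  isIntegral_adjoin_of_eval₂ _ _ _ (polyMu4_monic kA) (eval₂_polyMu4_mu4K N hA hℓN hN)

/-- `h̄₃` is integral over `k[j̄]` -/
theorem isIntegral_h3K (hN : 3 ∣ N) :
    IsIntegral (Algebra.adjoin kA {Gink.jK A N}) (h3K N hA hℓN hN) :=
  isIntegral_adjoin_of_eval₂ _ _ _ (polyH3_monic kA) (eval₂_polyH3_h3K N hA hℓN hN)

/-- `μ̄₉` is integral over `k[j̄]` -/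
theorem isIntegral_mu9K (hN : 9 ∣ N) :
    IsIntegral (Algebra.adjoin kA {Gink.jK A N}) (mu9K N hA hℓN hN) :=
  isIntegral_adjoin_of_eval₂ _ _ _ (polyMu9_monic kA) (eval₂_polyMu9_mu9K N hA hℓN hN)

/-- `h₂` is integral over `Q̄[j]` -/
theorem isIntegral_h2L (hN : 2 ∣ N) :
    IsIntegral (Algebra.adjoin Qb {Gin0.jF N}) (h2L N hA hℓN hN) :=
  isIntegral_adjoin_of_eval₂ _ _ _ (polyH2_monic Qb) (eval₂_polyH2_h2L N hA hℓN hN)

/-- `μ₄` is integral over `Q̄[j]` -/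
theorem isIntegral_mu4L (hN : 4 ∣ N) :
    IsIntegral (Algebra.adjoin Qb {Gin0.jF N}) (mu4L N hA hℓN hN) :=
  isIntegral_adjoin_of_eval₂ _ _ _ (polyMu4_monic Qb) (eval₂_polyMu4_mu4L N hA hℓN hN)

/-- `h₃` is integral over `Q̄[j]` -/
theorem isIntegral_h3L (hN : 3 ∣ N) :
    IsIntegral (Algebra.adjoin Qb {Gin0.jF N}) (h3L N hA hℓN hN) :=
  isIntegral_adjoin_of_eval₂ _ _ _ (polyH3_monic Qb) (eval₂_polyH3_h3L N hA hℓN hN)

/-- `μ₉` is integral over `Q̄[j]` -/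
theorem isIntegral_mu9L (hN : 9 ∣ N) :
    IsIntegral (Algebra.adjoin Qb {Gin0.jF N}) (mu9L N hA hℓN hN) :=
  isIntegral_adjoin_of_eval₂ _ _ _ (polyMu9_monic Qb) (eval₂_polyMu9_mu9L N hA hℓN hN)

end Integral

/-! ### leading terms and transcendence -/

section Transc

variable (hA : A.LiesOverPrime ℓ) (hℓN : ¬ ℓ ∣ N)

theorem monicAt_coe_h2K (hN : 2 ∣ N) :
    MonicAt (-1) ((h2K N hA hℓN hN : FRes A N) : LaurentSeries kA) := by
  rw [coe_h2K]; exact monicAt_castK kA monicAt_h2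
theorem monicAt_coe_h2L (hN : 2 ∣ N) :
    MonicAt (-1) ((h2L N hA hℓN hN : FBar N) : LaurentSeries Qb) := by
  rw [coe_h2L]; exact monicAt_castK Qb monicAt_h2
theorem monicAt_coe_mu4K (hN : 4 ∣ N) :
    MonicAt (-1) ((mu4K N hA hℓN hN : FRes A N) : LaurentSeries kA) := by
  rw [coe_mu4K]; exact monicAt_castK kA monicAt_mu4
theorem monicAt_coe_mu4L (hN : 4 ∣ N) :
    MonicAt (-1) ((mu4L N hA hℓN hN : FBar N) : LaurentSeries Qb) := by
  rw [coe_mu4L]; exact monicAt_castK Qb monicAt_mu4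
theorem monicAt_coe_h3K (hN : 3 ∣ N) :
    MonicAt (-1) ((h3K N hA hℓN hN : FRes A N) : LaurentSeries kA) := by
  rw [coe_h3K]; exact monicAt_castK kA monicAt_h3
theorem monicAt_coe_h3L (hN : 3 ∣ N) :
    MonicAt (-1) ((h3L N hA hℓN hN : FBar N) : LaurentSeries Qb) := by
  rw [coe_h3L]; exact monicAt_castK Qb monicAt_h3
theorem monicAt_coe_mu9K (hN : 9 ∣ N) :
    MonicAt (-1) ((mu9K N hA hℓN hN : FRes A N) : LaurentSeries kA) := by
  rw [coe_mu9K]; exact monicAt_castK kA monicAt_mu9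
theorem monicAt_coe_mu9L (hN : 9 ∣ N) :
    MonicAt (-1) ((mu9L N hA hℓN hN : FBar N) : LaurentSeries Qb) := by
  rw [coe_mu9L]; exact monicAt_castK Qb monicAt_mu9

theorem transcendental_of_coe_FRes {x : FRes A N}
    (h : Transcendental kA ((x : FRes A N) : LaurentSeries kA)) : Transcendental kA x :=
  (transcendental_algebraMap_iff (algebraMap_FRes_injective N)).mp h

theorem transcendental_of_coe_FBar {x : FBar N}
    (h : Transcendental Qb ((x : FBar N) : LaurentSeries Qb)) : Transcendental Qb x :=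
  (transcendental_algebraMap_iff (algebraMap_FBar_injective N)).mp h

theorem transcendental_h2K (hN : 2 ∣ N) : Transcendental kA (h2K N hA hℓN hN) :=
  transcendental_of_coe_FRes N
    (transcendental_of_monicAt (by norm_num) (monicAt_coe_h2K N hA hℓN hN))
theorem transcendental_h2L (hN : 2 ∣ N) : Transcendental Qb (h2L N hA hℓN hN) :=
  transcendental_of_coe_FBar N
    (transcendental_of_monicAt (by norm_num) (monicAt_coe_h2L N hA hℓN hN))
theorem transcendental_mu4K (hN : 4 ∣ N) : Transcendental kA (mu4K N hA hℓN hN) :=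
  transcendental_of_coe_FRes N
    (transcendental_of_monicAt (by norm_num) (monicAt_coe_mu4K N hA hℓN hN))
theorem transcendental_mu4L (hN : 4 ∣ N) : Transcendental Qb (mu4L N hA hℓN hN) :=
  transcendental_of_coe_FBar N
    (transcendental_of_monicAt (by norm_num) (monicAt_coe_mu4L N hA hℓN hN))
theorem transcendental_h3K (hN : 3 ∣ N) : Transcendental kA (h3K N hA hℓN hN) :=
  transcendental_of_coe_FRes N
    (transcendental_of_monicAt (by norm_num) (monicAt_coe_h3K N hA hℓN hN))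
theorem transcendental_h3L (hN : 3 ∣ N) : Transcendental Qb (h3L N hA hℓN hN) :=
  transcendental_of_coe_FBar N
    (transcendental_of_monicAt (by norm_num) (monicAt_coe_h3L N hA hℓN hN))
theorem transcendental_mu9K (hN : 9 ∣ N) : Transcendental kA (mu9K N hA hℓN hN) :=
  transcendental_of_coe_FRes N
    (transcendental_of_monicAt (by norm_num) (monicAt_coe_mu9K N hA hℓN hN))
theorem transcendental_mu9L (hN : 9 ∣ N) : Transcendental Qb (mu9L N hA hℓN hN) :=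
  transcendental_of_coe_FBar N
    (transcendental_of_monicAt (by norm_num) (monicAt_coe_mu9L N hA hℓN hN))

end Transc

end Fermat.Agent.S18lib.Haupt
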