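/-
S18lib / Haupt / LevelCompat  (helper6)

Compatibility of the Hauptmodul elements of `Haupt/Residue.lean` with the level inclusions
`V.inclL : FBar N → FBar N'`, `V.inclK : FRes A N → FRes A N'`, `V.inclI` (`N ∣ N'`) of
`V/GaussU/Level2.lean`. All proofs go through the coercion lemmas to the ambient Laurent series
field (never `rfl` across two levels: that makes the unifier compare the two function fields).
-/
import Mathlib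
import Fermat.Agent.S18lib.Haupt.Residue
import Fermat.Agent.S18lib.V.GaussU.Level2

set_option autoImplicit false
set_option linter.unusedSectionVars false

noncomputable section

namespace Fermat.Agent.S18lib.Haupt

open HahnSeries ModularCurve IntermediateField

variable {N N' : ℕ} [NeZero N] [NeZero N'] {A : ValuationSubring (AlgebraicClosure ℚ)}
variable {ℓ : ℕ} [Fact ℓ.Prime] (hA : A.LiesOverPrime ℓ)

local notation "Qb" => AlgebraicClosure ℚ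
local notation "kA" => IsLocalRing.ResidueField A

/-! ### the integral modular functions -/

theorem inclI_h2I (h : N ∣ N') (hℓN : ¬ ℓ ∣ N) (hℓN' : ¬ ℓ ∣ N') (hN : 2 ∣ N) (hN' : 2 ∣ N') :
    V.inclI A h (h2I N hA hℓN hN) = h2I N' hA hℓN' hN' :=
  Subtype.ext (V.coe_inclI A h _)

theorem inclI_mu4I (h : N ∣ N') (hℓN : ¬ ℓ ∣ N) (hℓN' : ¬ ℓ ∣ N') (hN : 4 ∣ N) (hN' : 4 ∣ N') :
    V.inclI A h (mu4I N hA hℓN hN) = mu4I N' hA hℓN' hN' :=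
  Subtype.ext (V.coe_inclI A h _)

theorem inclI_h3I (h : N ∣ N') (hℓN : ¬ ℓ ∣ N) (hℓN' : ¬ ℓ ∣ N') (hN : 3 ∣ N) (hN' : 3 ∣ N') :
    V.inclI A h (h3I N hA hℓN hN) = h3I N' hA hℓN' hN' :=
  Subtype.ext (V.coe_inclI A h _)

theorem inclI_mu9I (h : N ∣ N') (hℓN : ¬ ℓ ∣ N) (hℓN' : ¬ ℓ ∣ N') (hN : 9 ∣ N) (hN' : 9 ∣ N') :
    V.inclI A h (mu9I N hA hℓN hN) = mu9I N' hA hℓN' hN' :=
  Subtype.ext (V.coe_inclI A h _)

/-! ### the residue side `FRes A N ⊆ FRes A N'` -/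

/-- `h̄₂` at level `N` is `h̄₂` at level `N'`. -/
theorem inclK_h2K (h : N ∣ N') (hℓN : ¬ ℓ ∣ N) (hℓN' : ¬ ℓ ∣ N') (hN : 2 ∣ N) (hN' : 2 ∣ N') :
    V.inclK A h (h2K N hA hℓN hN) = h2K N' hA hℓN' hN' :=
  Subtype.ext (by rw [V.coe_inclK, coe_h2K, coe_h2K])

/-- `μ̄₄` at level `N` is `μ̄₄` at level `N'`. -/
theorem inclK_mu4K (h : N ∣ N') (hℓN : ¬ ℓ ∣ N) (hℓN' : ¬ ℓ ∣ N') (hN : 4 ∣ N) (hN' : 4 ∣ N') :
    V.inclK A h (mu4K N hA hℓN hN) = mu4K N' hA hℓN' hN' :=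
  Subtype.ext (by rw [V.coe_inclK, coe_mu4K, coe_mu4K])

/-- `h̄₃` at level `N` is `h̄₃` at level `N'`. -/
theorem inclK_h3K (h : N ∣ N') (hℓN : ¬ ℓ ∣ N) (hℓN' : ¬ ℓ ∣ N') (hN : 3 ∣ N) (hN' : 3 ∣ N') :
    V.inclK A h (h3K N hA hℓN hN) = h3K N' hA hℓN' hN' :=
  Subtype.ext (by rw [V.coe_inclK, coe_h3K, coe_h3K])

/-- `μ̄₉` at level `N` is `μ̄₉` at level `N'`. -/
theorem inclK_mu9K (h : N ∣ N') (hℓN : ¬ ℓ ∣ N) (hℓN' : ¬ ℓ ∣ N') (hN : 9 ∣ N) (hN' : 9 ∣ N') :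
    V.inclK A h (mu9K N hA hℓN hN) = mu9K N' hA hℓN' hN' :=
  Subtype.ext (by rw [V.coe_inclK, coe_mu9K, coe_mu9K])

/-! ### the characteristic-zero side `FBar N ⊆ FBar N'` -/

/-- `h₂` at level `N` is `h₂` at level `N'`. -/
theorem inclL_h2L (h : N ∣ N') (hℓN : ¬ ℓ ∣ N) (hℓN' : ¬ ℓ ∣ N') (hN : 2 ∣ N) (hN' : 2 ∣ N') :
    V.inclL h (h2L N hA hℓN hN) = h2L N' hA hℓN' hN' :=
  Subtype.ext (by rw [V.coe_inclL, coe_h2L, coe_h2L])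

/-- `μ₄` at level `N` is `μ₄` at level `N'`. -/
theorem inclL_mu4L (h : N ∣ N') (hℓN : ¬ ℓ ∣ N) (hℓN' : ¬ ℓ ∣ N') (hN : 4 ∣ N) (hN' : 4 ∣ N') :
    V.inclL h (mu4L N hA hℓN hN) = mu4L N' hA hℓN' hN' :=
  Subtype.ext (by rw [V.coe_inclL, coe_mu4L, coe_mu4L])

/-- `h₃` at level `N` is `h₃` at level `N'`. -/
theorem inclL_h3L (h : N ∣ N') (hℓN : ¬ ℓ ∣ N) (hℓN' : ¬ ℓ ∣ N') (hN : 3 ∣ N) (hN' : 3 ∣ N') :
    V.inclL h (h3L N hA hℓN hN) = h3L N' hA hℓN' hN' :=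
  Subtype.ext (by rw [V.coe_inclL, coe_h3L, coe_h3L])

/-- `μ₉` at level `N` is `μ₉` at level `N'`. -/
theorem inclL_mu9L (h : N ∣ N') (hℓN : ¬ ℓ ∣ N) (hℓN' : ¬ ℓ ∣ N') (hN : 9 ∣ N) (hN' : 9 ∣ N') :
    V.inclL h (mu9L N hA hℓN hN) = mu9L N' hA hℓN' hN' :=
  Subtype.ext (by rw [V.coe_inclL, coe_mu9L, coe_mu9L])

/-- `j̄(q^d)` at level `N` is `j̄(q^d)` at level `N'`. -/
theorem inclK_jKd (h : N ∣ N') (d : ℕ) (hd : d ∣ N) :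
    V.inclK A h (Gink.jKd A N d hd) = Gink.jKd A N' d (hd.trans h) :=
  Subtype.ext (by rw [V.coe_inclK, Gink.coe_jKd, Gink.coe_jKd])

end Fermat.Agent.S18lib.Haupt
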