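/-
S18lib / Haupt / Generate  (lead)

The Hauptmoduln generate the modular function fields of levels `2, 3, 4, 9`:
`K(X₀(2)) = K(h₂)`, `K(X₀(3)) = K(h₃)`, `K(X₀(4)) = K(μ₄)`, `K(X₀(9)) = K(μ₉)` inside `K((q))`,
for every field `K` receiving the algebraic integers in which `2` (resp. `3`) is invertible.
Also `j(q^p)` as a rational function of `h_p`, and `j(q^{p²})` as a rational function of `μ`.
-/
import Mathlib
import Fermat.Agent.S18lib.Haupt.Member

set_option autoImplicit false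
set_option linter.unusedSectionVars false

noncomputable section

namespace Fermat.Agent.S18lib.Haupt

open HahnSeries ModularCurve IntermediateField

variable (K : Type*) [Field K]

theorem mem_of_mul_eq {F : IntermediateField K (LaurentSeries K)} {a b c : LaurentSeries K}
    (hb0 : b ≠ 0) (hb : b ∈ F) (hc : c ∈ F) (h : a * b = c) : a ∈ F := by
  rw [eq_div_of_mul_eq hb0 h]
  exact div_mem hc hb

/-! ### relations over `K` -/

/-- `j(q²) h₂ = (h₂ + 16)³` over `K` -/
theorem castK_qExpand_JL_mul_h2 :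
    qExpand K 2 (jqModC K) * castK K h2 = (castK K h2 + 16) ^ 3 := by
  have h := congrArg (castK K) qExpand_JL_mul_h2
  simpa only [map_mul, map_pow, map_add, map_ofNat, castK_qExpand, castK_JL] using h

/-- `j h₂² = (h₂ + 256)³` over `K` -/
theorem castK_JL_mul_h2 : jqModC K * castK K h2 ^ 2 = (castK K h2 + 256) ^ 3 := by
  have h := congrArg (castK K) JL_mul_h2
  simpa only [map_mul, map_pow, map_add, map_ofNat, castK_JL] using h

/-- `j(q³) h₃ = (h₃ + 27)(h₃ + 3)³` over `K` -/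
theorem castK_qExpand_JL_mul_h3 :
    qExpand K 3 (jqModC K) * castK K h3 = (castK K h3 + 27) * (castK K h3 + 3) ^ 3 := by
  have h := congrArg (castK K) qExpand_JL_mul_h3
  simpa only [map_mul, map_pow, map_add, map_ofNat, castK_qExpand, castK_JL] using h

/-- `j h₃³ = (h₃ + 27)(h₃ + 243)³` over `K` -/
theorem castK_JL_mul_h3 :
    jqModC K * castK K h3 ^ 3 = (castK K h3 + 27) * (castK K h3 + 243) ^ 3 := by
  have h := congrArg (castK K) JL_mul_h3
  simpa only [map_mul, map_pow, map_add, map_ofNat, castK_JL] using h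

/-- `h₂ (μ₄ + 16) = μ₄²` over `K` -/
theorem castK_h2_mul_mu4 : castK K h2 * (castK K mu4 + 16) = castK K mu4 ^ 2 := by
  have h := congrArg (castK K) h2_mul_mu4
  simpa only [map_mul, map_pow, map_add, map_ofNat] using h

/-- `h₂(q²) = μ₄ (μ₄ + 16)` over `K` -/
theorem castK_g2_eq_mu4 : qExpand K 2 (castK K h2) = castK K mu4 * (castK K mu4 + 16) := by
  have h := congrArg (castK K) g2_eq_mu4
  rw [g2] at h
  simpa only [map_mul, map_pow, map_add, map_ofNat, castK_qExpand] using h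

/-- `j μ₄⁴ (μ₄ + 16) = (μ₄² + 256 μ₄ + 4096)³` over `K` -/
theorem castK_JL_mul_mu4 : jqModC K * (castK K mu4 ^ 4 * (castK K mu4 + 16)) =
    (castK K mu4 ^ 2 + 256 * castK K mu4 + 4096) ^ 3 := by
  have h := congrArg (castK K) JL_mul_mu4
  simpa only [map_mul, map_pow, map_add, map_ofNat, castK_JL] using h

/-- `h₃ (μ₉² + 9 μ₉ + 27) = μ₉³` over `K` -/
theorem castK_h3_mul_mu9 :
    castK K h3 * (castK K mu9 ^ 2 + 9 * castK K mu9 + 27) = castK K mu9 ^ 3 := by
  have h := congrArg (castK K) h3_mul_mu9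
  simpa only [map_mul, map_pow, map_add, map_ofNat] using h

/-- `h₃(q³) = μ₉ (μ₉² + 9 μ₉ + 27)` over `K` -/
theorem castK_g3_eq_mu9 :
    qExpand K 3 (castK K h3) = castK K mu9 * (castK K mu9 ^ 2 + 9 * castK K mu9 + 27) := by
  have h := congrArg (castK K) g3_eq_mu9
  rw [g3] at h
  simpa only [map_mul, map_pow, map_add, map_ofNat, castK_qExpand] using h

/-- `j μ₉⁹ (μ₉² + 9 μ₉ + 27) = (μ₉ + 9)³ (μ₉³ + 243 μ₉² + 2187 μ₉ + 6561)³` over `K` -/
theorem castK_JL_mul_mu9 :
    jqModC K * (castK K mu9 ^ 9 * (castK K mu9 ^ 2 + 9 * castK K mu9 + 27)) =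
      (castK K mu9 + 9) ^ 3 *
        (castK K mu9 ^ 3 + 243 * castK K mu9 ^ 2 + 2187 * castK K mu9 + 6561) ^ 3 := by
  have h := congrArg (castK K) JL_mul_mu9
  simpa only [map_mul, map_pow, map_add, map_ofNat, castK_JL] using h

/-! ### non-vanishing -/

theorem castK_h2_ne_zero : castK K h2 ≠ 0 := (monicAt_castK K monicAt_h2).ne_zero
theorem castK_h3_ne_zero : castK K h3 ≠ 0 := (monicAt_castK K monicAt_h3).ne_zero
theorem castK_mu4_ne_zero : castK K mu4 ≠ 0 := (monicAt_castK K monicAt_mu4).ne_zero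
theorem castK_mu9_ne_zero : castK K mu9 ≠ 0 := (monicAt_castK K monicAt_mu9).ne_zero

theorem castK_mu4_add_ne_zero : castK K mu4 + 16 ≠ 0 :=
  ((monicAt_castK K monicAt_mu4).add_ordGE (ordGE_ofNat 16) (by norm_num)).ne_zero

theorem castK_mu9_quad_ne_zero : castK K mu9 ^ 2 + 9 * castK K mu9 + 27 ≠ 0 := by
  have hm := monicAt_castK K monicAt_mu9
  have h1 : MonicAt (-2) (castK K mu9 ^ 2) := by
    have := hm.pow 2
    simpa using this
  have h2 : OrdGE (-1) (9 * castK K mu9) := by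
    have := (ordGE_ofNat (R := K) 9).mul hm.ordGE
    simpa using this
  exact ((h1.add_ordGE h2 (by norm_num)).add_ordGE (ordGE_ofNat 27) (by norm_num)).ne_zero

/-! ### generation -/

/-- `K(X₀(2)) = K(h₂)` -/
theorem fullC_two_eq (ι : integralClosure ℤ ℂ →+* K) (h2K : (2 : K) ≠ 0) :
    modularFunctionFieldFullC K 2 = K⟮castK K h2⟯ := by
  apply le_antisymm
  · rw [modularFunctionFieldFullC, adjoin_le_iff]
    rintro x ⟨d, hne, hd, rfl⟩
    have hh : castK K h2 ∈ K⟮castK K h2⟯ := mem_adjoin_simple_self K _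
    rcases (Nat.dvd_prime Nat.prime_two).mp hd with rfl | rfl
    · rw [qExpand_one_apply]
      exact mem_of_mul_eq K (pow_ne_zero 2 (castK_h2_ne_zero K)) (pow_mem hh 2)
        (pow_mem (add_mem hh (ofNat_mem _ _)) 3) (castK_JL_mul_h2 K)
    · exact mem_of_mul_eq K (castK_h2_ne_zero K) hh
        (pow_mem (add_mem hh (ofNat_mem _ _)) 3) (castK_qExpand_JL_mul_h2 K)
  · rw [adjoin_simple_le_iff]
    exact h2_mem_fullC K 2 ι h2K dvd_rfl

/-- `K(X₀(3)) = K(h₃)` -/
theorem fullC_three_eq (ι : integralClosure ℤ ℂ →+* K) (h3K : (3 : K) ≠ 0) :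
    modularFunctionFieldFullC K 3 = K⟮castK K h3⟯ := by
  apply le_antisymm
  · rw [modularFunctionFieldFullC, adjoin_le_iff]
    rintro x ⟨d, hne, hd, rfl⟩
    have hh : castK K h3 ∈ K⟮castK K h3⟯ := mem_adjoin_simple_self K _
    rcases (Nat.dvd_prime Nat.prime_three).mp hd with rfl | rfl
    · rw [qExpand_one_apply]
      exact mem_of_mul_eq K (pow_ne_zero 3 (castK_h3_ne_zero K)) (pow_mem hh 3)
        (mul_mem (add_mem hh (ofNat_mem _ _)) (pow_mem (add_mem hh (ofNat_mem _ _)) 3))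
        (castK_JL_mul_h3 K)
    · exact mem_of_mul_eq K (castK_h3_ne_zero K) hh
        (mul_mem (add_mem hh (ofNat_mem _ _)) (pow_mem (add_mem hh (ofNat_mem _ _)) 3))
        (castK_qExpand_JL_mul_h3 K)
  · rw [adjoin_simple_le_iff]
    exact h3_mem_fullC K 3 ι h3K dvd_rfl

/-- `h₂ ∈ K(μ₄)` -/
theorem h2_mem_adjoin_mu4 : castK K h2 ∈ K⟮castK K mu4⟯ := by
  have hm : castK K mu4 ∈ K⟮castK K mu4⟯ := mem_adjoin_simple_self K _
  exact mem_of_mul_eq K (castK_mu4_add_ne_zero K) (add_mem hm (ofNat_mem _ _)) (pow_mem hm 2)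
    (castK_h2_mul_mu4 K)

/-- `h₃ ∈ K(μ₉)` -/
theorem h3_mem_adjoin_mu9 : castK K h3 ∈ K⟮castK K mu9⟯ := by
  have hm : castK K mu9 ∈ K⟮castK K mu9⟯ := mem_adjoin_simple_self K _
  exact mem_of_mul_eq K (castK_mu9_quad_ne_zero K)
    (add_mem (add_mem (pow_mem hm 2) (mul_mem (ofNat_mem _ _) hm)) (ofNat_mem _ _)) (pow_mem hm 3)
    (castK_h3_mul_mu9 K)

/-- `K(X₀(4)) = K(μ₄)` -/
theorem fullC_four_eq (ι : integralClosure ℤ ℂ →+* K) (h2K : (2 : K) ≠ 0) :
    modularFunctionFieldFullC K 4 = K⟮castK K mu4⟯ := by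
  apply le_antisymm
  · rw [modularFunctionFieldFullC, adjoin_le_iff]
    rintro x ⟨d, hne, hd, rfl⟩
    have hm : castK K mu4 ∈ K⟮castK K mu4⟯ := mem_adjoin_simple_self K _
    have hh := h2_mem_adjoin_mu4 K
    have hg : qExpand K 2 (castK K h2) ∈ K⟮castK K mu4⟯ := by
      rw [castK_g2_eq_mu4]
      exact mul_mem hm (add_mem hm (ofNat_mem _ _))
    have hcases : d = 1 ∨ d = 2 ∨ d = 4 := by
      have h1 : 1 ≤ d := Nat.pos_of_ne_zero (NeZero.ne d)
      have h4 : d ≤ 4 := Nat.le_of_dvd (by norm_num) hd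
      interval_cases d
      · left; rfl
      · right; left; rfl
      · exact absurd hd (by norm_num)
      · right; right; rfl
    rcases hcases with rfl | rfl | rfl
    · rw [qExpand_one_apply]
      exact mem_of_mul_eq K (pow_ne_zero 2 (castK_h2_ne_zero K)) (pow_mem hh 2)
        (pow_mem (add_mem hh (ofNat_mem _ _)) 3) (castK_JL_mul_h2 K)
    · exact mem_of_mul_eq K (castK_h2_ne_zero K) hh
        (pow_mem (add_mem hh (ofNat_mem _ _)) 3) (castK_qExpand_JL_mul_h2 K)
    · have h4 := congrArg (qExpand K 2) (castK_qExpand_JL_mul_h2 K)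
      rw [map_mul, map_pow, map_add, map_ofNat, qExpand_qExpand,
        qExpand_congr (show (2 * 2 : ℕ) = 4 by norm_num)] at h4
      have hne : qExpand K 2 (castK K h2) ≠ 0 := by
        rw [castK_g2_eq_mu4]
        exact mul_ne_zero (castK_mu4_ne_zero K) (castK_mu4_add_ne_zero K)
      exact mem_of_mul_eq K hne hg (pow_mem (add_mem hg (ofNat_mem _ _)) 3) h4
  · rw [adjoin_simple_le_iff]
    exact mu4_mem_fullC K 4 ι h2K dvd_rfl

/-- `K(X₀(9)) = K(μ₉)` -/
theorem fullC_nine_eq (ι : integralClosure ℤ ℂ →+* K) (h3K : (3 : K) ≠ 0) :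
    modularFunctionFieldFullC K 9 = K⟮castK K mu9⟯ := by
  apply le_antisymm
  · rw [modularFunctionFieldFullC, adjoin_le_iff]
    rintro x ⟨d, hne, hd, rfl⟩
    have hm : castK K mu9 ∈ K⟮castK K mu9⟯ := mem_adjoin_simple_self K _
    have hh := h3_mem_adjoin_mu9 K
    have hQ : castK K mu9 ^ 2 + 9 * castK K mu9 + 27 ∈ K⟮castK K mu9⟯ :=
      add_mem (add_mem (pow_mem hm 2) (mul_mem (ofNat_mem _ _) hm)) (ofNat_mem _ _)
    have hg : qExpand K 3 (castK K h3) ∈ K⟮castK K mu9⟯ := by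
      rw [castK_g3_eq_mu9]
      exact mul_mem hm hQ
    have hcases : d = 1 ∨ d = 3 ∨ d = 9 := by
      have h1 : 1 ≤ d := Nat.pos_of_ne_zero (NeZero.ne d)
      have h9 : d ≤ 9 := Nat.le_of_dvd (by norm_num) hd
      interval_cases d
      · left; rfl
      · exact absurd hd (by norm_num)
      · right; left; rfl
      · exact absurd hd (by norm_num)
      · exact absurd hd (by norm_num)
      · exact absurd hd (by norm_num)
      · exact absurd hd (by norm_num)
      · exact absurd hd (by norm_num)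
      · right; right; rfl
    rcases hcases with rfl | rfl | rfl
    · rw [qExpand_one_apply]
      exact mem_of_mul_eq K (pow_ne_zero 3 (castK_h3_ne_zero K)) (pow_mem hh 3)
        (mul_mem (add_mem hh (ofNat_mem _ _)) (pow_mem (add_mem hh (ofNat_mem _ _)) 3))
        (castK_JL_mul_h3 K)
    · exact mem_of_mul_eq K (castK_h3_ne_zero K) hh
        (mul_mem (add_mem hh (ofNat_mem _ _)) (pow_mem (add_mem hh (ofNat_mem _ _)) 3))
        (castK_qExpand_JL_mul_h3 K)
    · have h9 := congrArg (qExpand K 3) (castK_qExpand_JL_mul_h3 K)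
      rw [map_mul, map_mul, map_pow, map_add, map_add, map_ofNat, map_ofNat,
        qExpand_qExpand, qExpand_congr (show (3 * 3 : ℕ) = 9 by norm_num)] at h9
      have hne : qExpand K 3 (castK K h3) ≠ 0 := by
        rw [castK_g3_eq_mu9]
        exact mul_ne_zero (castK_mu9_ne_zero K) (castK_mu9_quad_ne_zero K)
      exact mem_of_mul_eq K hne hg
        (mul_mem (add_mem hg (ofNat_mem _ _)) (pow_mem (add_mem hg (ofNat_mem _ _)) 3)) h9
  · rw [adjoin_simple_le_iff]
    exact mu9_mem_fullC K 9 ι h3K dvd_rfl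

end Fermat.Agent.S18lib.Haupt
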