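/-
S18lib / Haupt / BarEq  (lead)

`modularFunctionFieldBar N = Q̄(j(q^d) : d ∣ N)` as subfields of `Q̄((q))`, and the Hauptmoduln as
generators of the function fields `FBar M`, `FRes A M` for `M = 2, 3, 4, 9`.
-/
import Mathlib
import Fermat.Agent.S18lib.Haupt.Residue
import Fermat.Agent.S18lib.Haupt.Generate

set_option autoImplicit false
set_option linter.unusedSectionVars false

noncomputable section

namespace Fermat.Agent.S18lib.Haupt

open HahnSeries ModularCurve IntermediateField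

local notation "Qb" => AlgebraicClosure ℚ

theorem coeffEmb_qExpand_jq (d : ℕ) [NeZero d] :
    coeffEmb Qb (qExpand ℚ d jq) = qExpand Qb d (jqModC Qb) := by
  rw [coeffEmb, coeffMap_qExpand, ← jqModC_rat, coeffMap_jqModC]

/-- `modularFunctionFieldBar N ≤ Q̄(j(q^d) : d ∣ N)` -/
theorem bar_le_fullC_Qbar (N : ℕ) [NeZero N] :
    modularFunctionFieldBar N ≤ modularFunctionFieldFullC Qb N := by
  rw [modularFunctionFieldBar, laurentBaseChange, adjoin_le_iff]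
  rintro _ ⟨x, hx, rfl⟩
  have hx' : x ∈ IntermediateField.adjoin ℚ (divisorExpansions N) := hx
  induction hx' using IntermediateField.adjoin_induction with
  | mem y hy =>
      obtain ⟨d, hne, hd, rfl⟩ := hy
      have := hne
      rw [coeffEmb_qExpand_jq]
      exact jqModCd_mem_full Qb N hd
  | algebraMap r =>
      have h1 : coeffEmb Qb (algebraMap ℚ (LaurentSeries ℚ) r) =
          algebraMap Qb (LaurentSeries Qb) (algebraMap ℚ Qb r) := by
        rw [algebraMap_laurentSeries_eq_single, algebraMap_laurentSeries_eq_single, coeffEmb,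
          coeffMap_single]
      rw [SetLike.mem_coe, h1]
      exact IntermediateField.algebraMap_mem _ _
  | add y z _ _ hy hz =>
      rw [SetLike.mem_coe, map_add]
      exact add_mem (hy (by assumption)) (hz (by assumption))
  | inv y _ hy =>
      rw [SetLike.mem_coe, map_inv₀]
      exact inv_mem (hy (by assumption))
  | mul y z _ _ hy hz =>
      rw [SetLike.mem_coe, map_mul]
      exact mul_mem (hy (by assumption)) (hz (by assumption))

/-- `modularFunctionFieldBar N = Q̄(j(q^d) : d ∣ N)` -/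
theorem modularFunctionFieldBar_eq (N : ℕ) [NeZero N] :
    modularFunctionFieldBar N = modularFunctionFieldFullC Qb N :=
  le_antisymm (bar_le_fullC_Qbar N) (fullC_Qbar_le N)

/-- an element of an intermediate field `F` which generates `F` inside the big field generates the
field `F` itself -/
theorem adjoin_eq_top_of_coe {K L : Type*} [Field K] [Field L] [Algebra K L]
    {F : IntermediateField K L} (x : F) (h : F = K⟮(x : L)⟯) :
    (K⟮x⟯ : IntermediateField K F) = ⊤ := by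
  rw [eq_top_iff]
  intro y _
  have hy : (y : L) ∈ K⟮(x : L)⟯ := h ▸ y.2
  have hmap : (K⟮x⟯ : IntermediateField K F).map F.val = K⟮(x : L)⟯ := by
    rw [IntermediateField.adjoin_map, Set.image_singleton]
    rfl
  rw [← hmap] at hy
  obtain ⟨z, hz, hzy⟩ := (IntermediateField.mem_map _).mp hy
  have : z = y := Subtype.ext hzy
  rwa [← this]

variable {A : ValuationSubring (AlgebraicClosure ℚ)} {ℓ : ℕ} [Fact ℓ.Prime]

local notation "kA" => IsLocalRing.ResidueField A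

section Gen

variable (hA : A.LiesOverPrime ℓ)

/-- `FRes A 2 = k(h̄₂)` -/
theorem adjoin_h2K_eq_top (hℓ : ¬ ℓ ∣ 2) :
    (kA⟮h2K 2 hA hℓ dvd_rfl⟯ : IntermediateField kA (FRes A 2)) = ⊤ := by
  apply adjoin_eq_top_of_coe
  rw [coe_h2K]
  exact fullC_two_eq kA (Gink.iotaA A) (two_ne_zero_kRes 2 hA hℓ dvd_rfl)

/-- `FRes A 3 = k(h̄₃)` -/
theorem adjoin_h3K_eq_top (hℓ : ¬ ℓ ∣ 3) :
    (kA⟮h3K 3 hA hℓ dvd_rfl⟯ : IntermediateField kA (FRes A 3)) = ⊤ := by
  apply adjoin_eq_top_of_coe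
  rw [coe_h3K]
  exact fullC_three_eq kA (Gink.iotaA A) (three_ne_zero_kRes 3 hA hℓ dvd_rfl)

/-- `FRes A 4 = k(μ̄₄)` -/
theorem adjoin_mu4K_eq_top (hℓ : ¬ ℓ ∣ 4) :
    (kA⟮mu4K 4 hA hℓ dvd_rfl⟯ : IntermediateField kA (FRes A 4)) = ⊤ := by
  apply adjoin_eq_top_of_coe
  rw [coe_mu4K]
  exact fullC_four_eq kA (Gink.iotaA A) (two_ne_zero_kRes 4 hA hℓ (by norm_num))

/-- `FRes A 9 = k(μ̄₉)` -/
theorem adjoin_mu9K_eq_top (hℓ : ¬ ℓ ∣ 9) :
    (kA⟮mu9K 9 hA hℓ dvd_rfl⟯ : IntermediateField kA (FRes A 9)) = ⊤ := by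
  apply adjoin_eq_top_of_coe
  rw [coe_mu9K]
  exact fullC_nine_eq kA (Gink.iotaA A) (three_ne_zero_kRes 9 hA hℓ (by norm_num))

/-- `FBar 2 = Q̄(h₂)` -/
theorem adjoin_h2L_eq_top (hℓ : ¬ ℓ ∣ 2) :
    (Qb⟮h2L 2 hA hℓ dvd_rfl⟯ : IntermediateField Qb (FBar 2)) = ⊤ := by
  apply adjoin_eq_top_of_coe
  rw [coe_h2L, modularFunctionFieldBar_eq]
  exact fullC_two_eq Qb (Gink.intToQbar : _ →+* _) two_ne_zero

/-- `FBar 3 = Q̄(h₃)` -/
theorem adjoin_h3L_eq_top (hℓ : ¬ ℓ ∣ 3) :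
    (Qb⟮h3L 3 hA hℓ dvd_rfl⟯ : IntermediateField Qb (FBar 3)) = ⊤ := by
  apply adjoin_eq_top_of_coe
  rw [coe_h3L, modularFunctionFieldBar_eq]
  exact fullC_three_eq Qb (Gink.intToQbar : _ →+* _) three_ne_zero

/-- `FBar 4 = Q̄(μ₄)` -/
theorem adjoin_mu4L_eq_top (hℓ : ¬ ℓ ∣ 4) :
    (Qb⟮mu4L 4 hA hℓ dvd_rfl⟯ : IntermediateField Qb (FBar 4)) = ⊤ := by
  apply adjoin_eq_top_of_coe
  rw [coe_mu4L, modularFunctionFieldBar_eq]
  exact fullC_four_eq Qb (Gink.intToQbar : _ →+* _) two_ne_zero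

/-- `FBar 9 = Q̄(μ₉)` -/
theorem adjoin_mu9L_eq_top (hℓ : ¬ ℓ ∣ 9) :
    (Qb⟮mu9L 9 hA hℓ dvd_rfl⟯ : IntermediateField Qb (FBar 9)) = ⊤ := by
  apply adjoin_eq_top_of_coe
  rw [coe_mu9L, modularFunctionFieldBar_eq]
  exact fullC_nine_eq Qb (Gink.intToQbar : _ →+* _) three_ne_zero

end Gen

/-! ### `j̄(q^p)` in terms of `h̄_p` inside `FRes A N` -/

section JKd

variable (N : ℕ) [NeZero N] (hA : A.LiesOverPrime ℓ) (hℓN : ¬ ℓ ∣ N)

/-- `j̄(q²) h̄₂ = (h̄₂ + 16)³` in `FRes A N` -/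
theorem jKd_two_mul_h2K (hN : 2 ∣ N) :
    Gink.jKd A N 2 hN * h2K N hA hℓN hN = (h2K N hA hℓN hN + 16) ^ 3 := by
  apply algebraMap_FRes_injective N
  simp only [map_mul, map_pow, map_add, map_ofNat, IntermediateField.algebraMap_apply, coe_h2K,
    Gink.coe_jKd, Fermat.Agent.S28lib.jAt_of_neZero]
  exact castK_qExpand_JL_mul_h2 kA

/-- `j̄(q³) h̄₃ = (h̄₃ + 27)(h̄₃ + 3)³` in `FRes A N` -/
theorem jKd_three_mul_h3K (hN : 3 ∣ N) :
    Gink.jKd A N 3 hN * h3K N hA hℓN hN = (h3K N hA hℓN hN + 27) * (h3K N hA hℓN hN + 3) ^ 3 := by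
  apply algebraMap_FRes_injective N
  simp only [map_mul, map_pow, map_add, map_ofNat, IntermediateField.algebraMap_apply, coe_h3K,
    Gink.coe_jKd, Fermat.Agent.S28lib.jAt_of_neZero]
  exact castK_qExpand_JL_mul_h3 kA

end JKd

end Fermat.Agent.S18lib.Haupt
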