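/-
S18lib / Haupt / Monic  (lead)

A small calculus of leading terms for Laurent series over an arbitrary commutative ring:
`OrdGE n x` (`x = qⁿ · v`, `v` a power series) and `MonicAt n x` (`x = qⁿ · u`, `u(0) = 1`).
-/
import Mathlib
import Fermat.Prelude.Def_ModularCurve_X0ModL

set_option autoImplicit false

noncomputable section

namespace Fermat.Agent.S18lib.Haupt

open HahnSeries ModularCurve

variable {R : Type*} [CommRing R]

/-- `x = qⁿ · v` for a power series `v` -/
def OrdGE (n : ℤ) (x : LaurentSeries R) : Prop :=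
  ∃ v : PowerSeries R, x = HahnSeries.single n (1 : R) * HahnSeries.ofPowerSeries ℤ R v

/-- `x = qⁿ · u` for a power series `u` with constant coefficient `1` -/
def MonicAt (n : ℤ) (x : LaurentSeries R) : Prop :=
  ∃ u : PowerSeries R, PowerSeries.constantCoeff u = 1 ∧
    x = HahnSeries.single n (1 : R) * HahnSeries.ofPowerSeries ℤ R u

theorem single_one_mul_single_one (a b : ℤ) :
    (HahnSeries.single a (1 : R) * HahnSeries.single b (1 : R) : LaurentSeries R) =
      HahnSeries.single (a + b) 1 := by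
  rw [HahnSeries.single_mul_single, mul_one]

theorem single_zero_one_eq : (HahnSeries.single (0 : ℤ) (1 : R) : LaurentSeries R) = 1 := rfl

theorem MonicAt.ordGE {n : ℤ} {x : LaurentSeries R} (h : MonicAt n x) : OrdGE n x := by
  obtain ⟨u, -, hu⟩ := h
  exact ⟨u, hu⟩

theorem ordGE_ofPowerSeries (v : PowerSeries R) : OrdGE 0 (HahnSeries.ofPowerSeries ℤ R v) :=
  ⟨v, by rw [single_zero_one_eq, one_mul]⟩

theorem OrdGE.mono {n m : ℤ} {x : LaurentSeries R} (h : OrdGE n x) (hmn : m ≤ n) : OrdGE m x := by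
  obtain ⟨v, rfl⟩ := h
  obtain ⟨k, hk⟩ := Int.le.dest hmn
  refine ⟨PowerSeries.X ^ k * v, ?_⟩
  rw [map_mul, HahnSeries.ofPowerSeries_X_pow, ← mul_assoc, single_one_mul_single_one, hk]

theorem OrdGE.add {n : ℤ} {x y : LaurentSeries R} (hx : OrdGE n x) (hy : OrdGE n y) :
    OrdGE n (x + y) := by
  obtain ⟨v, rfl⟩ := hx
  obtain ⟨w, rfl⟩ := hy
  exact ⟨v + w, by rw [map_add, mul_add]⟩

theorem OrdGE.neg {n : ℤ} {x : LaurentSeries R} (hx : OrdGE n x) : OrdGE n (-x) := by
  obtain ⟨v, rfl⟩ := hx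
  exact ⟨-v, by rw [map_neg, mul_neg]⟩

theorem OrdGE.sub {n : ℤ} {x y : LaurentSeries R} (hx : OrdGE n x) (hy : OrdGE n y) :
    OrdGE n (x - y) := by
  rw [sub_eq_add_neg]
  exact hx.add hy.neg

theorem OrdGE.mul {n m : ℤ} {x y : LaurentSeries R} (hx : OrdGE n x) (hy : OrdGE m y) :
    OrdGE (n + m) (x * y) := by
  obtain ⟨v, rfl⟩ := hx
  obtain ⟨w, rfl⟩ := hy
  refine ⟨v * w, ?_⟩
  rw [map_mul, ← single_one_mul_single_one]
  ring

theorem ordGE_one : OrdGE 0 (1 : LaurentSeries R) :=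
  ⟨1, by rw [RingHom.map_one, mul_one]; rfl⟩

theorem OrdGE.pow {n : ℤ} {x : LaurentSeries R} (hx : OrdGE n x) (k : ℕ) :
    OrdGE (k * n) (x ^ k) := by
  induction k with
  | zero => simpa using ordGE_one
  | succ k ih =>
    rw [pow_succ, Nat.cast_succ, add_mul, one_mul]
    exact ih.mul hx

theorem ordGE_natCast (c : ℕ) : OrdGE 0 (c : LaurentSeries R) := by
  have h := ordGE_ofPowerSeries (R := R) (c : PowerSeries R)
  rwa [map_natCast] at h

theorem ordGE_intCast (c : ℤ) : OrdGE 0 (c : LaurentSeries R) := by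
  have h := ordGE_ofPowerSeries (R := R) (c : PowerSeries R)
  rwa [map_intCast] at h

theorem ordGE_ofNat (c : ℕ) [c.AtLeastTwo] : OrdGE 0 (OfNat.ofNat c : LaurentSeries R) := by
  have h := ordGE_natCast (R := R) (OfNat.ofNat c)
  rwa [Nat.cast_ofNat] at h

theorem monicAt_one : MonicAt 0 (1 : LaurentSeries R) :=
  ⟨1, by simp, by rw [RingHom.map_one, mul_one]; rfl⟩

theorem MonicAt.mul {n m : ℤ} {x y : LaurentSeries R} (hx : MonicAt n x) (hy : MonicAt m y) :
    MonicAt (n + m) (x * y) := by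
  obtain ⟨v, hv, rfl⟩ := hx
  obtain ⟨w, hw, rfl⟩ := hy
  refine ⟨v * w, by rw [map_mul, hv, hw, mul_one], ?_⟩
  rw [map_mul, ← single_one_mul_single_one]
  ring

theorem MonicAt.pow {n : ℤ} {x : LaurentSeries R} (hx : MonicAt n x) (k : ℕ) :
    MonicAt (k * n) (x ^ k) := by
  induction k with
  | zero => simpa using monicAt_one
  | succ k ih =>
    rw [pow_succ, Nat.cast_succ, add_mul, one_mul]
    exact ih.mul hx

theorem MonicAt.add_ordGE {n m : ℤ} {x y : LaurentSeries R} (hx : MonicAt n x) (hy : OrdGE m y)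
    (hnm : n < m) : MonicAt n (x + y) := by
  obtain ⟨v, hv, rfl⟩ := hx
  obtain ⟨w, rfl⟩ := hy
  obtain ⟨k, hk⟩ := Int.le.dest (Int.add_one_le_iff.mpr hnm)
  refine ⟨v + PowerSeries.X ^ (k + 1) * w, ?_, ?_⟩
  · rw [map_add, map_mul, map_pow, PowerSeries.constantCoeff_X, hv, zero_pow (Nat.succ_ne_zero k),
      zero_mul, add_zero]
  · rw [map_add, map_mul, HahnSeries.ofPowerSeries_X_pow, mul_add, ← mul_assoc,
      single_one_mul_single_one]
    have hkm : n + ((k + 1 : ℕ) : ℤ) = m := by push_cast; omega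
    rw [hkm]

theorem MonicAt.sub_ordGE {n m : ℤ} {x y : LaurentSeries R} (hx : MonicAt n x) (hy : OrdGE m y)
    (hnm : n < m) : MonicAt n (x - y) := by
  rw [sub_eq_add_neg]
  exact hx.add_ordGE hy.neg hnm

theorem MonicAt.ordGE_add {n m : ℤ} {x y : LaurentSeries R} (hy : OrdGE m y) (hx : MonicAt n x)
    (hnm : n < m) : MonicAt n (y + x) := by
  rw [add_comm]
  exact hx.add_ordGE hy hnm

/-- a monic Laurent series has a monic inverse -/
theorem MonicAt.exists_inv {n : ℤ} {x : LaurentSeries R} (hx : MonicAt n x) :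
    ∃ y : LaurentSeries R, MonicAt (-n) y ∧ x * y = 1 := by
  obtain ⟨v, hv, rfl⟩ := hx
  have h1 : v * PowerSeries.invOfUnit v 1 = 1 :=
    PowerSeries.mul_invOfUnit v 1 (by rw [hv]; rfl)
  refine ⟨HahnSeries.single (-n) 1 * HahnSeries.ofPowerSeries ℤ R (PowerSeries.invOfUnit v 1),
    ⟨_, ?_, rfl⟩, ?_⟩
  · have h2 := congrArg (PowerSeries.constantCoeff (R := R)) h1
    rwa [map_mul, hv, one_mul, map_one] at h2
  · calc HahnSeries.single n (1 : R) * HahnSeries.ofPowerSeries ℤ R v *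
          (HahnSeries.single (-n) 1 * HahnSeries.ofPowerSeries ℤ R (PowerSeries.invOfUnit v 1))
        = (HahnSeries.single n (1 : R) * HahnSeries.single (-n) 1) *
          HahnSeries.ofPowerSeries ℤ R (v * PowerSeries.invOfUnit v 1) := by
          rw [map_mul]; ring
      _ = 1 := by
          rw [h1, RingHom.map_one, mul_one, single_one_mul_single_one, add_neg_cancel]; rfl

theorem MonicAt.isUnit {n : ℤ} {x : LaurentSeries R} (hx : MonicAt n x) : IsUnit x := by
  obtain ⟨y, -, hy⟩ := hx.exists_inv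
  exact IsUnit.of_mul_eq_one y hy

theorem MonicAt.coeff_self {n : ℤ} {x : LaurentSeries R} (hx : MonicAt n x) : x.coeff n = 1 := by
  obtain ⟨v, hv, rfl⟩ := hx
  rw [HahnSeries.coeff_single_mul, one_mul, sub_self,
    show (0 : ℤ) = ((0 : ℕ) : ℤ) from rfl, HahnSeries.ofPowerSeries_apply_coeff,
    PowerSeries.coeff_zero_eq_constantCoeff, hv]

theorem OrdGE.coeff_of_lt {n m : ℤ} {x : LaurentSeries R} (hx : OrdGE n x) (hm : m < n) :
    x.coeff m = 0 := by
  obtain ⟨v, rfl⟩ := hx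
  rw [HahnSeries.coeff_single_mul, one_mul]
  exact ofPowerSeries_coeff_of_neg _ (by omega)

theorem MonicAt.ne_zero [Nontrivial R] {n : ℤ} {x : LaurentSeries R} (hx : MonicAt n x) :
    x ≠ 0 := by
  intro h
  have := hx.coeff_self
  rw [h, HahnSeries.coeff_zero] at this
  exact zero_ne_one this

/-- two monic Laurent series at different places are different -/
theorem MonicAt.ne_of_ordGE [Nontrivial R] {n m : ℤ} {x y : LaurentSeries R} (hx : MonicAt n x)
    (hy : OrdGE m y) (hnm : n < m) : x ≠ y := by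
  intro h
  have h1 := hx.coeff_self
  rw [h, hy.coeff_of_lt hnm] at h1
  exact zero_ne_one h1

theorem MonicAt.coeffMap {S : Type*} [CommRing S] (f : R →+* S) {n : ℤ} {x : LaurentSeries R}
    (hx : MonicAt n x) : MonicAt n (ModularCurve.coeffMap f x) := by
  obtain ⟨v, hv, rfl⟩ := hx
  refine ⟨v.map f, ?_, ?_⟩
  · rw [← PowerSeries.coeff_zero_eq_constantCoeff_apply, PowerSeries.coeff_map,
      PowerSeries.coeff_zero_eq_constantCoeff_apply, hv, map_one]
  · rw [map_mul, coeffMap_single, map_one, coeffMap_ofPowerSeries]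

theorem OrdGE.coeffMap {S : Type*} [CommRing S] (f : R →+* S) {n : ℤ} {x : LaurentSeries R}
    (hx : OrdGE n x) : OrdGE n (ModularCurve.coeffMap f x) := by
  obtain ⟨v, rfl⟩ := hx
  exact ⟨v.map f, by rw [map_mul, coeffMap_single, map_one, coeffMap_ofPowerSeries]⟩

/-- `q ↦ q^p` on a power series, as a power series -/
theorem exists_qExpand_ofPowerSeries (p : ℕ) [NeZero p] (v : PowerSeries R) :
    ∃ w : PowerSeries R, PowerSeries.constantCoeff w = PowerSeries.constantCoeff v ∧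
      qExpand R p (HahnSeries.ofPowerSeries ℤ R v) = HahnSeries.ofPowerSeries ℤ R w := by
  refine ⟨PowerSeries.mk fun n => (qExpand R p (HahnSeries.ofPowerSeries ℤ R v)).coeff n, ?_, ?_⟩
  · rw [← PowerSeries.coeff_zero_eq_constantCoeff_apply, PowerSeries.coeff_mk,
      show ((0 : ℕ) : ℤ) = (p : ℤ) * ((0 : ℕ) : ℤ) by simp, qExpand_coeff_mul,
      HahnSeries.ofPowerSeries_apply_coeff, PowerSeries.coeff_zero_eq_constantCoeff_apply]
  · ext k
    rcases le_or_gt 0 k with hk | hk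
    · lift k to ℕ using hk
      rw [HahnSeries.ofPowerSeries_apply_coeff, PowerSeries.coeff_mk]
    · rw [ofPowerSeries_coeff_of_neg _ hk]
      by_cases hd : (p : ℤ) ∣ k
      · obtain ⟨m, rfl⟩ := hd
        rw [qExpand_coeff_mul]
        refine ofPowerSeries_coeff_of_neg _ ?_
        by_contra hm
        push Not at hm
        have : (0 : ℤ) ≤ (p : ℤ) * m := mul_nonneg (Int.natCast_nonneg p) hm
        omega
      · exact qExpand_coeff_of_not_dvd p _ hd

theorem MonicAt.qExpand (p : ℕ) [NeZero p] {n : ℤ} {x : LaurentSeries R} (hx : MonicAt n x) :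
    MonicAt ((p : ℤ) * n) (qExpand R p x) := by
  obtain ⟨v, hv, rfl⟩ := hx
  obtain ⟨w, hw, hw'⟩ := exists_qExpand_ofPowerSeries p v
  exact ⟨w, by rw [hw, hv], by rw [map_mul, qExpand_single, hw']⟩

theorem OrdGE.qExpand (p : ℕ) [NeZero p] {n : ℤ} {x : LaurentSeries R} (hx : OrdGE n x) :
    OrdGE ((p : ℤ) * n) (qExpand R p x) := by
  obtain ⟨v, rfl⟩ := hx
  obtain ⟨w, -, hw'⟩ := exists_qExpand_ofPowerSeries p v
  exact ⟨w, by rw [map_mul, qExpand_single, hw']⟩

end Fermat.Agent.S18lib.Haupt
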