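/-
S18lib / Haupt / Transc  (lead)

A Laurent series over a field with a pole and leading coefficient `1` is transcendental over the
field of constants; in particular the images of `h₂, h₃, μ₄, μ₉` are transcendental.
-/
import Mathlib
import Fermat.Agent.S18lib.Haupt.Member

set_option autoImplicit false
set_option linter.unusedSectionVars false

noncomputable section

namespace Fermat.Agent.S18lib.Haupt

open HahnSeries ModularCurve

variable (K : Type*) [Field K]

theorem coeff_algebraMap_mul (c : K) (y : LaurentSeries K) (m : ℤ) :
    (algebraMap K (LaurentSeries K) c * y).coeff m = c * y.coeff m := by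
  rw [algebraMap_laurentSeries_eq_single, HahnSeries.coeff_single_mul, sub_zero]

variable {K}

/-- a Laurent series `qⁿ(1 + ⋯)` with `n < 0` is transcendental over the constants -/
theorem transcendental_of_monicAt {n : ℤ} (hn : n < 0) {x : LaurentSeries K} (hx : MonicAt n x) :
    Transcendental K x := by
  intro halg
  obtain ⟨p, hp0, hp⟩ := halg
  have hc : (Polynomial.aeval x p).coeff ((p.natDegree : ℤ) * n) = p.leadingCoeff := by
    rw [Polynomial.aeval_eq_sum_range, HahnSeries.coeff_sum]
    rw [Finset.sum_eq_single p.natDegree]
    · rw [Algebra.smul_def, coeff_algebraMap_mul,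
        (hx.pow p.natDegree).coeff_self, mul_one, Polynomial.leadingCoeff]
    · intro i hi hne
      have hlt : i < p.natDegree := lt_of_le_of_ne (Nat.lt_succ_iff.mp (Finset.mem_range.mp hi)) hne
      rw [Algebra.smul_def, coeff_algebraMap_mul,
        (hx.pow i).ordGE.coeff_of_lt, mul_zero]
      have : (i : ℤ) < (p.natDegree : ℤ) := by exact_mod_cast hlt
      nlinarith
    · intro h
      exact absurd (Finset.mem_range.mpr (Nat.lt_succ_self _)) h
  rw [hp, HahnSeries.coeff_zero] at hc
  exact hp0 (Polynomial.leadingCoeff_eq_zero.mp hc.symm)

variable (K)

theorem transcendental_castK_h2 : Transcendental K (castK K h2) :=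
  transcendental_of_monicAt (by norm_num) (monicAt_castK K monicAt_h2)

theorem transcendental_castK_h3 : Transcendental K (castK K h3) :=
  transcendental_of_monicAt (by norm_num) (monicAt_castK K monicAt_h3)

theorem transcendental_castK_mu4 : Transcendental K (castK K mu4) :=
  transcendental_of_monicAt (by norm_num) (monicAt_castK K monicAt_mu4)

theorem transcendental_castK_mu9 : Transcendental K (castK K mu9) :=
  transcendental_of_monicAt (by norm_num) (monicAt_castK K monicAt_mu9)

end Fermat.Agent.S18lib.Haupt
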